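/-
S41lib / TREE / PingPong  (helper3).

A ping-pong criterion for the injectivity of `Monoid.PushoutI.lift` for an amalgamated product of
TWO groups `G false *_H G true`.
-/
import Mathlib

set_option autoImplicit false
set_option linter.unusedSectionVars false
set_option linter.unusedVariables false

namespace Fermat.Agent.S41lib.TREE

open Monoid Monoid.PushoutI Monoid.PushoutI.NormalWord

section list

variable {𝒢 : Type*} [Group 𝒢] {α : Type*} [MulAction 𝒢 α]

/-- alternating tagged lists -/
def AltList (A : Bool → Set 𝒢) : List (Bool × 𝒢) → Prop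
  | [] => True
  | [(i, a)] => a ∈ A i
  | (i, a) :: (j, b) :: l => a ∈ A i ∧ j = !i ∧ AltList A ((j, b) :: l)

/-- the product of a tagged list -/
def tprod (l : List (Bool × 𝒢)) : 𝒢 := (l.map Prod.snd).prod

@[simp] theorem tprod_nil : tprod ([] : List (Bool × 𝒢)) = 1 := rfl
@[simp] theorem tprod_cons (x : Bool × 𝒢) (l : List (Bool × 𝒢)) :
    tprod (x :: l) = x.2 * tprod l := by
  simp [tprod]

/-- the tag of the last letter (default `i`) -/
def lastTag (i : Bool) : List (Bool × 𝒢) → Bool
  | [] => i
  | x :: l => lastTag x.1 l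

/-- **ping-pong for alternating words**: a nonempty alternating word with first tag `i` and last
tag `j` maps `X (!j)` into `X i`. -/
theorem altList_smul_mem (A : Bool → Set 𝒢) (X : Bool → Set α)
    (hpp : ∀ i, ∀ a ∈ A i, ∀ z ∈ X (!i), a • z ∈ X i) :
    ∀ (l : List (Bool × 𝒢)) (i : Bool) (a : 𝒢), AltList A ((i, a) :: l) →
      ∀ z ∈ X (!(lastTag i l)), tprod ((i, a) :: l) • z ∈ X i := by
  intro l
  induction l with
  | nil =>
    intro i a h z hz
    simp only [AltList] at h
    simpa using hpp i a h z hz
  | cons x l ih =>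
    intro i a h z hz
    obtain ⟨j, b⟩ := x
    simp only [AltList] at h
    obtain ⟨ha, hj, hl⟩ := h
    have h1 := ih j b hl z hz
    rw [tprod_cons, mul_smul]
    subst hj
    exact hpp i a ha _ h1

end list

section pushout

variable {H : Type*} [Group H] {G : Bool → Type*} [∀ i, Group (G i)] (φ : ∀ i, H →* G i)
  {𝒢 : Type*} [Group 𝒢] (f : ∀ i, G i →* 𝒢) (k : H →* 𝒢)
  (hf : ∀ i, (f i).comp (φ i) = k)

/-- the image in `𝒢` of a word of the free product, as a tagged list -/
def wordList (l : List (Σ i, G i)) : List (Bool × 𝒢) := l.map fun x => (x.1, f x.1 x.2)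

theorem lift_word_prod (w : CoprodI.Word G) :
    PushoutI.lift f k hf (ofCoprodI w.prod) = tprod (wordList f w.toList) := by
  rcases w with ⟨l, h1, h2⟩
  simp only [CoprodI.Word.prod, wordList, tprod]
  induction l with
  | nil => simp
  | cons x l ih =>
    have h1' : ∀ y ∈ l, Sigma.snd y ≠ 1 := fun y hy => h1 y (List.mem_cons_of_mem _ hy)
    have h2' := h2.tail
    have := ih h1' h2'
    simp only [List.map_cons, List.prod_cons, map_mul, List.map_map] at this ⊢
    rw [this, ofCoprodI_of, lift_of]

theorem altList_wordList (l : List (Σ i, G i))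
    (hchain : l.IsChain fun x y => x.1 ≠ y.1)
    (hred : ∀ x ∈ l, x.2 ∉ (φ x.1).range) :
    AltList (fun i => {a | ∃ g : G i, g ∉ (φ i).range ∧ f i g = a}) (wordList f l) := by
  induction l with
  | nil => trivial
  | cons x l ih =>
    cases l with
    | nil =>
      simp only [wordList, List.map_cons, List.map_nil, AltList]
      exact ⟨x.2, hred x (List.mem_cons_self), rfl⟩
    | cons y l =>
      have h1 := ih hchain.tail (fun z hz => hred z (List.mem_cons_of_mem _ hz))
      simp only [wordList, List.map_cons, AltList] at h1 ⊢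
      refine ⟨⟨x.2, hred x (List.mem_cons_self), rfl⟩, ?_, h1⟩
      have hne : x.1 ≠ y.1 := by
        have := hchain
        simp only [List.isChain_cons_cons] at this
        exact this.1
      cases hx : x.1 <;> cases hy : y.1 <;> simp_all

theorem not_mem_range_of_mem_transversal (d : Transversal φ) (i : Bool) (g : G i)
    (hg : g ∈ d.set i) (h1 : g ≠ 1) : g ∉ (φ i).range := by
  intro hr
  have hc := d.compl i
  have hinj := hc.1
  have : (⟨⟨g, hr⟩, ⟨1, d.one_mem i⟩⟩ : (φ i).range × d.set i) =
      ⟨⟨1, one_mem _⟩, ⟨g, hg⟩⟩ := by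
    apply hinj
    simp
  have h2 := congrArg (fun x => (x.1 : G i)) this
  exact h1 h2

theorem disjoint_false_true {α : Type*} {X : Bool → Set α} (hXdisj : Disjoint (X false) (X true))
    (i : Bool) {z : α} (h1 : z ∈ X i) (h2 : z ∈ X (!i)) : False := by
  cases i
  · exact Set.disjoint_left.mp hXdisj h1 h2
  · exact Set.disjoint_left.mp hXdisj h2 h1

/-- **Ping-pong lemma for an amalgam of two groups.** -/
theorem lift_injective_of_ping_pong
    (hφ : ∀ i, Function.Injective (φ i)) (hk : Function.Injective k)
    {α : Type*} [MulAction 𝒢 α] (X : Bool → Set α)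
    (hXdisj : Disjoint (X false) (X true)) (hXne : ∀ i, (X i).Nonempty)
    (hpp : ∀ i (g : G i), g ∉ (φ i).range → ∀ z ∈ X (!i), f i g • z ∈ X i)
    (hbase : ∀ (h : H) (i : Bool), ∀ z ∈ X i, k h • z ∈ X i)
    (hproper : ∀ i (g : G i), g ∉ (φ i).range → ∃ z ∈ X i, f i g • z ∈ X i) :
    Function.Injective (PushoutI.lift f k hf) := by
  classical
  obtain ⟨d⟩ := transversal_nonempty φ hφ
  refine (injective_iff_map_eq_one _).mpr fun g hg => ?_
  have hgw : g = (NormalWord.equiv (d := d) g).prod :=
    ((NormalWord.equiv (d := d)).left_inv g).symm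
  set w := NormalWord.equiv (d := d) g with hw
  rw [hgw] at hg ⊢
  have hL : PushoutI.lift f k hf w.prod = k w.head * tprod (wordList f w.toList) := by
    rw [NormalWord.prod, map_mul, lift_base, lift_word_prod]
  rw [hL] at hg
  set A : Bool → Set 𝒢 := fun i => {a | ∃ g : G i, g ∉ (φ i).range ∧ f i g = a} with hA
  have hred : ∀ x ∈ w.toList, x.2 ∉ (φ x.1).range := fun x hx =>
    not_mem_range_of_mem_transversal φ d x.1 x.2 (w.normalized x.1 x.2 hx) (w.ne_one x hx)
  have halt := altList_wordList φ f w.toList w.chain_ne hred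
  have hppA : ∀ i, ∀ a ∈ A i, ∀ z ∈ X (!i), a • z ∈ X i := by
    rintro i a ⟨g', hg', rfl⟩ z hz
    exact hpp i g' hg' z hz
  cases hl : w.toList with
  | nil =>
    rw [hl] at hg
    simp only [wordList, List.map_nil, tprod_nil, mul_one] at hg
    have hh : w.head = 1 := hk (by rw [hg, map_one])
    rw [NormalWord.prod, hh, map_one, one_mul, CoprodI.Word.prod, hl]
    simp
  | cons x l =>
    exfalso
    rw [hl] at hg halt
    have hxr : x.2 ∉ (φ x.1).range := hred x (by rw [hl]; exact List.mem_cons_self)
    simp only [wordList, List.map_cons] at hg halt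
    set i := x.1 with hi
    set a := f x.1 x.2 with ha
    set L' := List.map (fun x : (Σ i, G i) => (x.1, f x.1 x.2)) l with hL'
    -- the element `g̃ = φ i h * x.2`
    have hkh : k w.head = f i (φ i w.head) := by
      rw [← hf i]; rfl
    set gt : G i := φ i w.head * x.2 with hgt
    have hgtr : gt ∉ (φ i).range := by
      intro hr
      apply hxr
      have : x.2 = (φ i w.head)⁻¹ * gt := by rw [hgt]; group
      rw [this]
      exact mul_mem (inv_mem ⟨w.head, rfl⟩) hr
    have hgtr' : gt⁻¹ ∉ (φ i).range := fun hr => hgtr (by simpa using inv_mem hr)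
    have htot : f i gt * tprod L' = 1 := by
      rw [hgt, map_mul, ← hkh, mul_assoc]
      simpa [tprod_cons] using hg
    have hP := altList_smul_mem A X hppA L' i a halt
    by_cases hj : lastTag i L' = i
    · -- first and last tag agree
      obtain ⟨z, hz⟩ := hXne (!i)
      have h1 := hP z (by rw [hj]; exact hz)
      have h2 := hbase w.head i _ h1
      rw [← mul_smul, hg, one_smul] at h2
      exact disjoint_false_true hXdisj i h2 hz
    · -- first and last tag differ
      have hj' : lastTag i L' = !i := by
        generalize lastTag i L' = t at hj ⊢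
        generalize i = i0 at hj ⊢
        cases t <;> cases i0 <;> simp at hj ⊢
      cases hL'' : L' with
      | nil =>
        rw [hL''] at hj
        simp [lastTag] at hj
      | cons y L'' =>
        obtain ⟨i', b⟩ := y
        rw [hL''] at halt hj' htot
        simp only [AltList] at halt
        obtain ⟨-, hi', halt'⟩ := halt
        have hP' := altList_smul_mem A X hppA L'' i' b halt'
        simp only [lastTag] at hj'
        obtain ⟨z, hz, hz'⟩ := hproper i gt⁻¹ hgtr'
        have h1 := hP' z (by rw [hj']; simpa using hz)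
        have h3 : tprod ((i', b) :: L'') = f i gt⁻¹ := by
          rw [map_inv]
          exact eq_inv_of_mul_eq_one_right htot
        rw [h3, hi'] at h1
        exact disjoint_false_true hXdisj i hz' h1

end pushout

end Fermat.Agent.S41lib.TREE
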