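/-
S41lib / TREE / Amalgam  (helper3).

`Γ = Γ₀(N)`, `Γ' = δ⁻¹ Γ δ` (`δ = diag(q, 1)`, `q` prime, `q ∤ N`) inside `SL(2, ℚ)`; their
intersection is `Γ₀(N q)`, and the subgroup `Δ` they generate is the amalgam
`Γ *_{Γ₀(N q)} Γ'` (ping-pong with the `q`-adic norm on `ℚ²`).  Output: `exists_glue`.
-/
import Mathlib
import Fermat.Agent.S41lib.TREE.PingPong

set_option autoImplicit false
set_option linter.unusedSectionVars false
set_option linter.unusedVariables false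

noncomputable section

namespace Fermat.Agent.S41lib.TREE

open Matrix CongruenceSubgroup Monoid
open scoped MatrixGroups

/-- the ambient group `SL(2, ℚ)` -/
abbrev SLQ : Type := Matrix.SpecialLinearGroup (Fin 2) ℚ

/-! ### The `q`-adic norm: ultrametric toolkit -/

section nu

variable (q : ℕ) [Fact q.Prime]

theorem nu_add_le {x y m : ℚ} (hx : padicNorm q x ≤ m) (hy : padicNorm q y ≤ m) :
    padicNorm q (x + y) ≤ m :=
  le_trans padicNorm.nonarchimedean (max_le hx hy)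

theorem nu_add_eq_of_lt {x y : ℚ} (h : padicNorm q y < padicNorm q x) :
    padicNorm q (x + y) = padicNorm q x := by
  rw [padicNorm.add_eq_max_of_ne (ne_of_gt h), max_eq_left h.le]

theorem nu_add_eq_of_lt' {x y : ℚ} (h : padicNorm q x < padicNorm q y) :
    padicNorm q (x + y) = padicNorm q y := by
  rw [add_comm]; exact nu_add_eq_of_lt q h

theorem nu_int_mul_le (a : ℤ) (x : ℚ) : padicNorm q ((a : ℚ) * x) ≤ padicNorm q x := by
  rw [padicNorm.mul]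
  exact mul_le_of_le_one_left (padicNorm.nonneg _) (padicNorm.of_int a)

theorem nu_int_mul_eq {a : ℤ} (ha : ¬ (q : ℤ) ∣ a) (x : ℚ) :
    padicNorm q ((a : ℚ) * x) = padicNorm q x := by
  rw [padicNorm.mul, (padicNorm.int_eq_one_iff a).mpr ha, one_mul]

theorem nu_pos {x : ℚ} (hx : x ≠ 0) : 0 < padicNorm q x :=
  lt_of_le_of_ne (padicNorm.nonneg _) (Ne.symm (padicNorm.nonzero hx))

theorem nu_int_mul_lt {a : ℤ} (ha : (q : ℤ) ∣ a) {x : ℚ} (hx : x ≠ 0) :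
    padicNorm q ((a : ℚ) * x) < padicNorm q x := by
  rw [padicNorm.mul]
  exact mul_lt_of_lt_one_left (nu_pos q hx) ((padicNorm.int_lt_one_iff a).mpr ha)

theorem ne_zero_of_nu_pos {x : ℚ} (h : 0 < padicNorm q x) : x ≠ 0 := by
  rintro rfl
  simp at h

end nu

/-! ### The action of `SL(2, ℚ)` on `ℚ²` -/

theorem SLQ_smul_zero (g : SLQ) (v : Fin 2 → ℚ) :
    (g • v) 0 = g 0 0 * v 0 + g 0 1 * v 1 := by
  simp [Matrix.SpecialLinearGroup.smul_def, Matrix.mulVec, dotProduct, Fin.sum_univ_two]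

theorem SLQ_smul_one (g : SLQ) (v : Fin 2 → ℚ) :
    (g • v) 1 = g 1 0 * v 0 + g 1 1 * v 1 := by
  simp [Matrix.SpecialLinearGroup.smul_def, Matrix.mulVec, dotProduct, Fin.sum_univ_two]

theorem SLZ_det (g : SL(2, ℤ)) : g 0 0 * g 1 1 - g 0 1 * g 1 0 = 1 := by
  have h := g.det_coe
  rwa [Matrix.det_fin_two] at h

theorem SLZ_ext {g h : SL(2, ℤ)} (h00 : g 0 0 = h 0 0) (h01 : g 0 1 = h 0 1)
    (h10 : g 1 0 = h 1 0) (h11 : g 1 1 = h 1 1) : g = h := by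
  ext i j
  fin_cases i <;> fin_cases j <;> assumption

theorem mem_Gamma0_iff_dvd' {N : ℕ} (g : SL(2, ℤ)) : g ∈ Gamma0 N ↔ (N : ℤ) ∣ g 1 0 := by
  rw [Gamma0_mem, ZMod.intCast_zmod_eq_zero_iff_dvd]

/-! ### The two embeddings -/

/-- `SL(2, ℤ) → SL(2, ℚ)` -/
def castQ : SL(2, ℤ) →* SLQ := Matrix.SpecialLinearGroup.map (Int.castRingHom ℚ)

@[simp] theorem castQ_apply (g : SL(2, ℤ)) (i j : Fin 2) : castQ g i j = (g i j : ℚ) := rfl

/-- `g ↦ δ⁻¹ g δ`, `(a b; c d) ↦ (a, b/q; q c, d)` -/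
def conjQ (q : ℕ) [NeZero q] : SL(2, ℤ) →* SLQ where
  toFun g := ⟨!![(g 0 0 : ℚ), (g 0 1 : ℚ) / q; (q : ℚ) * g 1 0, (g 1 1 : ℚ)], by
    have hq : (q : ℚ) ≠ 0 := Nat.cast_ne_zero.mpr (NeZero.ne q)
    have h := congrArg (Int.cast : ℤ → ℚ) (SLZ_det g)
    push_cast at h
    rw [Matrix.det_fin_two_of]
    field_simp
    linear_combination h⟩
  map_one' := by
    ext i j
    fin_cases i <;> fin_cases j <;> simp
  map_mul' g h := by
    have hq : (q : ℚ) ≠ 0 := Nat.cast_ne_zero.mpr (NeZero.ne q)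
    ext i j
    fin_cases i <;> fin_cases j <;>
      simp [Matrix.mul_apply, Fin.sum_univ_two] <;> field_simp <;> ring

theorem conjQ_00 (q : ℕ) [NeZero q] (g : SL(2, ℤ)) : conjQ q g 0 0 = (g 0 0 : ℚ) := rfl
theorem conjQ_01 (q : ℕ) [NeZero q] (g : SL(2, ℤ)) : conjQ q g 0 1 = (g 0 1 : ℚ) / q := rfl
theorem conjQ_10 (q : ℕ) [NeZero q] (g : SL(2, ℤ)) : conjQ q g 1 0 = (q : ℚ) * g 1 0 := rfl
theorem conjQ_11 (q : ℕ) [NeZero q] (g : SL(2, ℤ)) : conjQ q g 1 1 = (g 1 1 : ℚ) := rfl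

theorem castQ_injective : Function.Injective castQ := by
  intro g h hgh
  apply SLZ_ext
  · have := congrArg (fun m : SLQ => m 0 0) hgh
    simpa using this
  · have := congrArg (fun m : SLQ => m 0 1) hgh
    simpa using this
  · have := congrArg (fun m : SLQ => m 1 0) hgh
    simpa using this
  · have := congrArg (fun m : SLQ => m 1 1) hgh
    simpa using this

theorem conjQ_injective (q : ℕ) [NeZero q] : Function.Injective (conjQ q) := by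
  have hq : (q : ℚ) ≠ 0 := Nat.cast_ne_zero.mpr (NeZero.ne q)
  intro g h hgh
  apply SLZ_ext
  · have := congrArg (fun m : SLQ => m 0 0) hgh
    simpa [conjQ_00] using this
  · have := congrArg (fun m : SLQ => m 0 1) hgh
    simp only [conjQ_01] at this
    have h2 : (g 0 1 : ℚ) = h 0 1 := by
      field_simp at this
      exact this
    exact_mod_cast h2
  · have := congrArg (fun m : SLQ => m 1 0) hgh
    simp only [conjQ_10] at this
    have h2 : (g 1 0 : ℚ) = h 1 0 := mul_left_cancel₀ hq this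
    exact_mod_cast h2
  · have := congrArg (fun m : SLQ => m 1 1) hgh
    simpa [conjQ_11] using this

/-! ### The ping-pong sets and the six verifications -/

section pp

variable (q : ℕ) [Fact q.Prime]

/-- `{(x, y) : |x| ≤ |y|, y ≠ 0}` -/
def XF : Set (Fin 2 → ℚ) := {v | padicNorm q (v 0) ≤ padicNorm q (v 1) ∧ v 1 ≠ 0}

/-- `{(x, y) : |y| < |x|}` -/
def XT : Set (Fin 2 → ℚ) := {v | padicNorm q (v 1) < padicNorm q (v 0)}

theorem nu_add_lt {x y m : ℚ} (hx : padicNorm q x < m) (hy : padicNorm q y < m) :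
    padicNorm q (x + y) < m :=
  lt_of_le_of_lt padicNorm.nonarchimedean (max_lt hx hy)

theorem not_dvd_11_of_dvd_10 (g : SL(2, ℤ)) (hc : (q : ℤ) ∣ g 1 0) : ¬ (q : ℤ) ∣ g 1 1 := by
  intro hd
  have h := SLZ_det g
  have h1 : (q : ℤ) ∣ g 0 0 * g 1 1 - g 0 1 * g 1 0 :=
    dvd_sub (dvd_mul_of_dvd_right hd _) (dvd_mul_of_dvd_right hc _)
  rw [h] at h1
  have hq : (q : ℤ) = 1 ∨ (q : ℤ) = -1 := Int.isUnit_iff.mp (isUnit_of_dvd_one h1)
  have hq2 : 2 ≤ q := (Fact.out : q.Prime).two_le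
  omega

theorem not_dvd_00_of_dvd_10 (g : SL(2, ℤ)) (hc : (q : ℤ) ∣ g 1 0) : ¬ (q : ℤ) ∣ g 0 0 := by
  intro hd
  have h := SLZ_det g
  have h1 : (q : ℤ) ∣ g 0 0 * g 1 1 - g 0 1 * g 1 0 :=
    dvd_sub (dvd_mul_of_dvd_left hd _) (dvd_mul_of_dvd_right hc _)
  rw [h] at h1
  have hq : (q : ℤ) = 1 ∨ (q : ℤ) = -1 := Int.isUnit_iff.mp (isUnit_of_dvd_one h1)
  have hq2 : 2 ≤ q := (Fact.out : q.Prime).two_le
  omega

/-- (A) `Γ ∖ H` maps `XT` into `XF` -/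
theorem castQ_smul_mem_XF (g : SL(2, ℤ)) (hc : ¬ (q : ℤ) ∣ g 1 0) (z : Fin 2 → ℚ)
    (hz : z ∈ XT q) : castQ g • z ∈ XF q := by
  simp only [XT, Set.mem_setOf_eq] at hz
  have h1 : padicNorm q ((g 1 0 : ℚ) * z 0) = padicNorm q (z 0) := nu_int_mul_eq q hc _
  have h2 : padicNorm q ((g 1 1 : ℚ) * z 1) ≤ padicNorm q (z 1) := nu_int_mul_le q _ _
  have h3 : padicNorm q ((g 1 1 : ℚ) * z 1) < padicNorm q ((g 1 0 : ℚ) * z 0) := by
    rw [h1]; exact lt_of_le_of_lt h2 hz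
  have h4 : padicNorm q ((g 1 0 : ℚ) * z 0 + (g 1 1 : ℚ) * z 1) = padicNorm q (z 0) := by
    rw [nu_add_eq_of_lt q h3, h1]
  have h5 : padicNorm q ((g 0 0 : ℚ) * z 0 + (g 0 1 : ℚ) * z 1) ≤ padicNorm q (z 0) :=
    nu_add_le q (nu_int_mul_le q _ _) ((nu_int_mul_le q _ _).trans hz.le)
  simp only [XF, Set.mem_setOf_eq, SLQ_smul_zero, SLQ_smul_one, castQ_apply]
  refine ⟨h5.trans h4.symm.le, ne_zero_of_nu_pos q ?_⟩
  rw [h4]
  exact lt_of_le_of_lt (padicNorm.nonneg _) hz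

theorem one_lt_cast_q : (1 : ℚ) < q := by
  exact_mod_cast (Fact.out : q.Prime).one_lt

theorem nu_q : padicNorm q (q : ℚ) = (q : ℚ)⁻¹ := padicNorm.padicNorm_p_of_prime

/-- (B) `Γ' ∖ H` maps `XF` into `XT` -/
theorem conjQ_smul_mem_XT (g : SL(2, ℤ)) (hb : ¬ (q : ℤ) ∣ g 0 1) (z : Fin 2 → ℚ)
    (hz : z ∈ XF q) : conjQ q g • z ∈ XT q := by
  simp only [XF, Set.mem_setOf_eq] at hz
  obtain ⟨hz1, hz2⟩ := hz
  have hq0 : (q : ℚ) ≠ 0 := Nat.cast_ne_zero.mpr (NeZero.ne q)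
  have hypos := nu_pos q hz2
  have h1 : padicNorm q ((g 0 1 : ℚ) / q * z 1) = q * padicNorm q (z 1) := by
    rw [padicNorm.mul, padicNorm.div, (padicNorm.int_eq_one_iff _).mpr hb, nu_q]
    simp
  have h2 : padicNorm q (z 1) < q * padicNorm q (z 1) := by
    have := one_lt_cast_q q
    nlinarith
  have h3 : padicNorm q ((g 0 0 : ℚ) * z 0) < padicNorm q ((g 0 1 : ℚ) / q * z 1) := by
    rw [h1]
    exact lt_of_le_of_lt ((nu_int_mul_le q _ _).trans hz1) h2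
  have h4 : padicNorm q ((g 0 0 : ℚ) * z 0 + (g 0 1 : ℚ) / q * z 1) = q * padicNorm q (z 1) := by
    rw [nu_add_eq_of_lt' q h3, h1]
  have h5 : padicNorm q ((q : ℚ) * (g 1 0 : ℚ) * z 0) ≤ padicNorm q (z 1) := by
    have : ((q : ℚ) * (g 1 0 : ℚ)) = (((q : ℤ) * g 1 0 : ℤ) : ℚ) := by push_cast; ring
    rw [this]
    exact (nu_int_mul_le q _ _).trans hz1
  have h6 : padicNorm q ((q : ℚ) * (g 1 0 : ℚ) * z 0 + (g 1 1 : ℚ) * z 1) ≤ padicNorm q (z 1) :=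
    nu_add_le q h5 (nu_int_mul_le q _ _)
  simp only [XT, Set.mem_setOf_eq, SLQ_smul_zero, SLQ_smul_one, conjQ_00, conjQ_01, conjQ_10,
    conjQ_11]
  rw [h4]
  exact lt_of_le_of_lt h6 h2

/-- (C) `H` preserves `XF` -/
theorem castQ_smul_mem_XF_of_dvd (g : SL(2, ℤ)) (hc : (q : ℤ) ∣ g 1 0) (z : Fin 2 → ℚ)
    (hz : z ∈ XF q) : castQ g • z ∈ XF q := by
  simp only [XF, Set.mem_setOf_eq] at hz
  obtain ⟨hz1, hz2⟩ := hz
  have hd := not_dvd_11_of_dvd_10 q g hc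
  have hypos := nu_pos q hz2
  have h1 : padicNorm q ((g 1 1 : ℚ) * z 1) = padicNorm q (z 1) := nu_int_mul_eq q hd _
  have h2 : padicNorm q ((g 1 0 : ℚ) * z 0) < padicNorm q ((g 1 1 : ℚ) * z 1) := by
    rw [h1]
    rcases eq_or_ne (z 0) 0 with h0 | h0
    · rw [h0, mul_zero, padicNorm.zero]; exact hypos
    · exact lt_of_lt_of_le (nu_int_mul_lt q hc h0) hz1
  have h3 : padicNorm q ((g 1 0 : ℚ) * z 0 + (g 1 1 : ℚ) * z 1) = padicNorm q (z 1) := by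
    rw [nu_add_eq_of_lt' q h2, h1]
  have h4 : padicNorm q ((g 0 0 : ℚ) * z 0 + (g 0 1 : ℚ) * z 1) ≤ padicNorm q (z 1) :=
    nu_add_le q ((nu_int_mul_le q _ _).trans hz1) (nu_int_mul_le q _ _)
  simp only [XF, Set.mem_setOf_eq, SLQ_smul_zero, SLQ_smul_one, castQ_apply]
  refine ⟨h4.trans h3.symm.le, ne_zero_of_nu_pos q ?_⟩
  rw [h3]
  exact hypos

/-- (D) `H` preserves `XT` -/
theorem castQ_smul_mem_XT_of_dvd (g : SL(2, ℤ)) (hc : (q : ℤ) ∣ g 1 0) (z : Fin 2 → ℚ)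
    (hz : z ∈ XT q) : castQ g • z ∈ XT q := by
  simp only [XT, Set.mem_setOf_eq] at hz
  have ha := not_dvd_00_of_dvd_10 q g hc
  have hxpos : 0 < padicNorm q (z 0) := lt_of_le_of_lt (padicNorm.nonneg _) hz
  have hx0 : z 0 ≠ 0 := ne_zero_of_nu_pos q hxpos
  have h1 : padicNorm q ((g 0 0 : ℚ) * z 0) = padicNorm q (z 0) := nu_int_mul_eq q ha _
  have h2 : padicNorm q ((g 0 1 : ℚ) * z 1) < padicNorm q ((g 0 0 : ℚ) * z 0) := by
    rw [h1]; exact lt_of_le_of_lt (nu_int_mul_le q _ _) hz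
  have h3 : padicNorm q ((g 0 0 : ℚ) * z 0 + (g 0 1 : ℚ) * z 1) = padicNorm q (z 0) := by
    rw [nu_add_eq_of_lt q h2, h1]
  have h4 : padicNorm q ((g 1 0 : ℚ) * z 0 + (g 1 1 : ℚ) * z 1) < padicNorm q (z 0) :=
    nu_add_lt q (nu_int_mul_lt q hc hx0) (lt_of_le_of_lt (nu_int_mul_le q _ _) hz)
  simp only [XT, Set.mem_setOf_eq, SLQ_smul_zero, SLQ_smul_one, castQ_apply]
  rw [h3]
  exact h4

/-- (E) properness for `Γ ∖ H` -/
theorem exists_mem_XF_castQ_smul_mem_XF (g : SL(2, ℤ)) (hc : ¬ (q : ℤ) ∣ g 1 0) :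
    ∃ z ∈ XF q, castQ g • z ∈ XF q := by
  obtain ⟨t, ht⟩ : ∃ t : ℤ, ¬ (q : ℤ) ∣ g 1 0 * t + g 1 1 := by
    by_cases hd : (q : ℤ) ∣ g 1 1
    · refine ⟨1, fun h => hc ?_⟩
      rw [mul_one] at h
      exact (dvd_add_left hd).mp h
    · exact ⟨0, by simpa using hd⟩
  refine ⟨![(t : ℚ), 1], ?_, ?_⟩
  · simp only [XF, Set.mem_setOf_eq, Matrix.cons_val_zero, Matrix.cons_val_one]
    refine ⟨?_, one_ne_zero⟩
    rw [padicNorm.one]
    exact padicNorm.of_int t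
  · simp only [XF, Set.mem_setOf_eq, SLQ_smul_zero, SLQ_smul_one, castQ_apply,
      Matrix.cons_val_zero, Matrix.cons_val_one]
    have e1 : ((g 1 0 : ℚ) * t + (g 1 1 : ℚ) * 1) = ((g 1 0 * t + g 1 1 : ℤ) : ℚ) := by
      push_cast; ring
    have e0 : ((g 0 0 : ℚ) * t + (g 0 1 : ℚ) * 1) = ((g 0 0 * t + g 0 1 : ℤ) : ℚ) := by
      push_cast; ring
    have h1 : padicNorm q ((g 1 0 * t + g 1 1 : ℤ) : ℚ) = 1 := (padicNorm.int_eq_one_iff _).mpr ht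
    rw [e0, e1, h1]
    refine ⟨padicNorm.of_int _, ne_zero_of_nu_pos q ?_⟩
    rw [h1]
    exact one_pos

/-- (F) properness for `Γ' ∖ H` -/
theorem exists_mem_XT_conjQ_smul_mem_XT (g : SL(2, ℤ)) (hb : ¬ (q : ℤ) ∣ g 0 1) :
    ∃ z ∈ XT q, conjQ q g • z ∈ XT q := by
  have hq0 : (q : ℚ) ≠ 0 := Nat.cast_ne_zero.mpr (NeZero.ne q)
  obtain ⟨t, ht⟩ : ∃ t : ℤ, ¬ (q : ℤ) ∣ g 0 0 + g 0 1 * t := by
    by_cases ha : (q : ℤ) ∣ g 0 0
    · refine ⟨1, fun h => hb ?_⟩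
      rw [mul_one] at h
      exact (dvd_add_right ha).mp h
    · exact ⟨0, by simpa using ha⟩
  have hlt : ∀ m : ℤ, padicNorm q (((q : ℤ) * m : ℤ) : ℚ) < 1 := fun m =>
    (padicNorm.int_lt_one_iff _).mpr (dvd_mul_right _ _)
  refine ⟨![1, (((q : ℤ) * t : ℤ) : ℚ)], ?_, ?_⟩
  · simp only [XT, Set.mem_setOf_eq, Matrix.cons_val_zero, Matrix.cons_val_one]
    rw [padicNorm.one]
    exact hlt t
  · simp only [XT, Set.mem_setOf_eq, SLQ_smul_zero, SLQ_smul_one, conjQ_00, conjQ_01, conjQ_10,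
      conjQ_11, Matrix.cons_val_zero, Matrix.cons_val_one]
    have e0 : ((g 0 0 : ℚ) * 1 + (g 0 1 : ℚ) / q * (((q : ℤ) * t : ℤ) : ℚ)) =
        ((g 0 0 + g 0 1 * t : ℤ) : ℚ) := by
      push_cast
      field_simp
    have e1 : ((q : ℚ) * (g 1 0 : ℚ) * 1 + (g 1 1 : ℚ) * (((q : ℤ) * t : ℤ) : ℚ)) =
        (((q : ℤ) * (g 1 0 + g 1 1 * t) : ℤ) : ℚ) := by
      push_cast; ring
    rw [e0, e1, (padicNorm.int_eq_one_iff _).mpr ht]
    exact hlt _

theorem disjoint_XF_XT : Disjoint (XF q) (XT q) := by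
  rw [Set.disjoint_left]
  intro z h1 h2
  simp only [XF, XT, Set.mem_setOf_eq] at h1 h2
  exact absurd h1.1 (not_le.mpr h2)

theorem XF_nonempty : (XF q).Nonempty :=
  ⟨![0, 1], by simp [XF]⟩

theorem XT_nonempty : (XT q).Nonempty :=
  ⟨![1, 0], by simp [XT]⟩

end pp

/-! ### The amalgam -/

section amalgam

variable {N q : ℕ} [Fact q.Prime]

/-- the two factors (both are `Γ₀(N)`) -/
abbrev GG (N : ℕ) : Bool → Type := fun _ => ↥(Gamma0 N)

instance instGroupGG (N : ℕ) (i : Bool) : Group (GG N i) := inferInstanceAs (Group ↥(Gamma0 N))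

/-- `Γ₀(N) → SL(2, ℚ)` -/
def iotaF (N : ℕ) : ↥(Gamma0 N) →* SLQ := castQ.comp (Gamma0 N).subtype

/-- `Γ₀(N) → SL(2, ℚ)`, `γ ↦ δ⁻¹ γ δ` -/
def iotaT (N q : ℕ) [NeZero q] : ↥(Gamma0 N) →* SLQ := (conjQ q).comp (Gamma0 N).subtype

@[simp] theorem iotaF_apply (γ : ↥(Gamma0 N)) : iotaF N γ = castQ (γ : SL(2, ℤ)) := rfl
@[simp] theorem iotaT_apply (γ : ↥(Gamma0 N)) : iotaT N q γ = conjQ q (γ : SL(2, ℤ)) := rfl

theorem iotaF_injective : Function.Injective (iotaF N) := fun a b h =>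
  Subtype.ext (castQ_injective h)

theorem iotaT_injective : Function.Injective (iotaT N q) := fun a b h =>
  Subtype.ext (conjQ_injective q h)

/-- the maps of the two factors into `SL(2, ℚ)` -/
def fF (N q : ℕ) [NeZero q] : ∀ i, GG N i →* SLQ := fun i => cond i (iotaT N q) (iotaF N)

/-- `Δ`: the subgroup of `SL(2, ℚ)` generated by `Γ₀(N)` and `δ⁻¹ Γ₀(N) δ` -/
def Delta (N q : ℕ) [NeZero q] : Subgroup SLQ := (iotaF N).range ⊔ (iotaT N q).range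

theorem iotaF_mem_Delta (γ : ↥(Gamma0 N)) : iotaF N γ ∈ Delta N q :=
  (le_sup_left : (iotaF N).range ≤ Delta N q) ⟨γ, rfl⟩

theorem iotaT_mem_Delta (γ : ↥(Gamma0 N)) : iotaT N q γ ∈ Delta N q :=
  (le_sup_right : (iotaT N q).range ≤ Delta N q) ⟨γ, rfl⟩

variable (hqN : Nat.Coprime q N)
  (incl cj : ↥(Gamma0 (N * q)) →* ↥(Gamma0 N))
  (hincl : ∀ h : ↥(Gamma0 (N * q)), ((incl h : ↥(Gamma0 N)) : SL(2, ℤ)) = h)
  (hcj : ∀ h : ↥(Gamma0 (N * q)),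
    conjQ q ((cj h : ↥(Gamma0 N)) : SL(2, ℤ)) = castQ (h : SL(2, ℤ)))

/-- the two maps of the base group into the factors -/
def phiF (incl cj : ↥(Gamma0 (N * q)) →* ↥(Gamma0 N)) : ∀ i, ↥(Gamma0 (N * q)) →* GG N i :=
  fun i => cond i cj incl

include hincl hcj in
theorem fF_comp_phiF (i : Bool) : (fF N q i).comp (phiF incl cj i) = iotaF (N * q) := by
  cases i
  · ext1 h
    show castQ ((incl h : ↥(Gamma0 N)) : SL(2, ℤ)) = castQ (h : SL(2, ℤ))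
    rw [hincl]
  · ext1 h
    exact hcj h

include hincl in
theorem incl_injective : Function.Injective incl := by
  intro a b hab
  apply Subtype.ext
  rw [← hincl a, ← hincl b, hab]

include hcj in
theorem cj_injective : Function.Injective cj := by
  intro a b hab
  apply Subtype.ext
  apply castQ_injective
  rw [← hcj a, ← hcj b, hab]

include hqN hincl in
theorem not_dvd_of_not_mem_range_incl (g : ↥(Gamma0 N)) (hg : g ∉ incl.range) :
    ¬ (q : ℤ) ∣ (g : SL(2, ℤ)) 1 0 := by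
  intro hq
  apply hg
  have hN : (N : ℤ) ∣ (g : SL(2, ℤ)) 1 0 := (mem_Gamma0_iff_dvd' _).mp g.2
  have hcop : IsCoprime (N : ℤ) (q : ℤ) := by
    rw [Int.isCoprime_iff_gcd_eq_one, Int.gcd_natCast_natCast]
    exact hqN.symm
  have hNq : ((N * q : ℕ) : ℤ) ∣ (g : SL(2, ℤ)) 1 0 := by
    push_cast
    exact hcop.mul_dvd hN hq
  refine ⟨⟨(g : SL(2, ℤ)), (mem_Gamma0_iff_dvd' _).mpr hNq⟩, ?_⟩
  apply Subtype.ext
  rw [hincl]

include hcj in
theorem not_dvd_of_not_mem_range_cj (g : ↥(Gamma0 N)) (hg : g ∉ cj.range) :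
    ¬ (q : ℤ) ∣ (g : SL(2, ℤ)) 0 1 := by
  intro hq
  apply hg
  obtain ⟨b', hb'⟩ := hq
  have hN : (N : ℤ) ∣ (g : SL(2, ℤ)) 1 0 := (mem_Gamma0_iff_dvd' _).mp g.2
  have hdet := SLZ_det (g : SL(2, ℤ))
  let h0 : SL(2, ℤ) := ⟨!![(g : SL(2, ℤ)) 0 0, b'; (q : ℤ) * (g : SL(2, ℤ)) 1 0,
    (g : SL(2, ℤ)) 1 1], by
      rw [Matrix.det_fin_two_of]
      rw [hb'] at hdet
      linear_combination hdet⟩
  have h0mem : h0 ∈ Gamma0 (N * q) := by
    rw [mem_Gamma0_iff_dvd']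
    show ((N * q : ℕ) : ℤ) ∣ (q : ℤ) * (g : SL(2, ℤ)) 1 0
    push_cast
    rw [mul_comm (N : ℤ)]
    exact mul_dvd_mul_left _ hN
  refine ⟨⟨h0, h0mem⟩, ?_⟩
  apply Subtype.ext
  apply conjQ_injective q
  rw [hcj]
  have hq0 : (q : ℚ) ≠ 0 := Nat.cast_ne_zero.mpr (NeZero.ne q)
  ext i j
  fin_cases i <;> fin_cases j
  · rfl
  · show ((b' : ℤ) : ℚ) = ((g : SL(2, ℤ)) 0 1 : ℚ) / q
    rw [hb']
    push_cast
    field_simp
  · show (((q : ℤ) * (g : SL(2, ℤ)) 1 0 : ℤ) : ℚ) = (q : ℚ) * ((g : SL(2, ℤ)) 1 0 : ℚ)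
    push_cast
    rfl
  · rfl

include hqN hincl hcj in
/-- **`Γ₀(N) *_{Γ₀(N q)} Γ₀(N) → SL(2, ℚ)` is injective.** -/
theorem lift_injective :
    Function.Injective (PushoutI.lift (fF N q) (iotaF (N * q))
      (fF_comp_phiF incl cj hincl hcj)) := by
  have hdvd : ∀ h : ↥(Gamma0 (N * q)), (q : ℤ) ∣ (h : SL(2, ℤ)) 1 0 := by
    intro h
    have := (mem_Gamma0_iff_dvd' _).mp h.2
    push_cast at this
    exact (dvd_mul_left _ _).trans this
  refine lift_injective_of_ping_pong (phiF incl cj) (fF N q) (iotaF (N * q))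
    (fF_comp_phiF incl cj hincl hcj) ?_ iotaF_injective
    (fun i => cond i (XT q) (XF q)) ?_ ?_ ?_ ?_ ?_
  · intro i
    cases i
    · exact incl_injective incl hincl
    · exact cj_injective cj hcj
  · exact disjoint_XF_XT q
  · intro i
    cases i
    · exact XF_nonempty q
    · exact XT_nonempty q
  · intro i g hg z hz
    cases i
    · exact castQ_smul_mem_XF q _ (not_dvd_of_not_mem_range_incl hqN incl hincl g hg) z hz
    · exact conjQ_smul_mem_XT q _ (not_dvd_of_not_mem_range_cj cj hcj g hg) z hz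
  · intro h i z hz
    cases i
    · exact castQ_smul_mem_XF_of_dvd q _ (hdvd h) z hz
    · exact castQ_smul_mem_XT_of_dvd q _ (hdvd h) z hz
  · intro i g hg
    cases i
    · exact exists_mem_XF_castQ_smul_mem_XF q _
        (not_dvd_of_not_mem_range_incl hqN incl hincl g hg)
    · exact exists_mem_XT_conjQ_smul_mem_XT q _ (not_dvd_of_not_mem_range_cj cj hcj g hg)

include hincl hcj in
theorem range_lift_eq_Delta :
    (PushoutI.lift (fF N q) (iotaF (N * q)) (fF_comp_phiF incl cj hincl hcj)).range =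
      Delta N q := by
  apply le_antisymm
  · rintro _ ⟨x, rfl⟩
    induction x using PushoutI.induction_on with
    | of i g =>
      rw [PushoutI.lift_of]
      cases i
      · exact iotaF_mem_Delta g
      · exact iotaT_mem_Delta g
    | base h =>
      rw [PushoutI.lift_base]
      have : iotaF (N * q) h = iotaF N (incl h) := by
        show castQ (h : SL(2, ℤ)) = castQ ((incl h : ↥(Gamma0 N)) : SL(2, ℤ))
        rw [hincl]
      rw [this]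
      exact iotaF_mem_Delta _
    | mul x y hx hy =>
      rw [map_mul]
      exact mul_mem hx hy
  · apply sup_le
    · rintro _ ⟨γ, rfl⟩
      exact ⟨PushoutI.of (φ := phiF incl cj) false γ, PushoutI.lift_of _ _ _ _⟩
    · rintro _ ⟨γ, rfl⟩
      exact ⟨PushoutI.of (φ := phiF incl cj) true γ, PushoutI.lift_of _ _ _ _⟩

include hqN hincl hcj in
/-- **Gluing**: two homomorphisms `φ₁, φ₂ : Γ₀(N) → A` with `φ₁ ∘ incl = φ₂ ∘ (δ · δ⁻¹)` on
`Γ₀(N q)` come from a (unique) homomorphism on `Δ = ⟨Γ₀(N), δ⁻¹ Γ₀(N) δ⟩ ≤ SL(2, ℚ)`. -/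
theorem exists_glue {A : Type*} [Group A] (φ₁ φ₂ : ↥(Gamma0 N) →* A)
    (hφ : ∀ h : ↥(Gamma0 (N * q)), φ₁ (incl h) = φ₂ (cj h)) :
    ∃ χ : ↥(Delta N q) →* A,
      (∀ γ : ↥(Gamma0 N), χ ⟨iotaF N γ, iotaF_mem_Delta γ⟩ = φ₁ γ) ∧
      (∀ γ : ↥(Gamma0 N), χ ⟨iotaT N q γ, iotaT_mem_Delta γ⟩ = φ₂ γ) := by
  classical
  set L := PushoutI.lift (fF N q) (iotaF (N * q)) (fF_comp_phiF incl cj hincl hcj) with hL
  have hLinj : Function.Injective L := lift_injective hqN incl cj hincl hcj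
  have hrange : L.range = Delta N q := range_lift_eq_Delta incl cj hincl hcj
  let Ψ : PushoutI (phiF incl cj) →* A :=
    PushoutI.lift (fun i => (cond i φ₂ φ₁ : GG N i →* A)) (φ₁.comp incl) (by
      intro i
      cases i
      · rfl
      · ext1 h
        exact (hφ h).symm)
  let e := MonoidHom.ofInjective hLinj
  let χ : ↥(Delta N q) →* A :=
    Ψ.comp (e.symm.toMonoidHom.comp (MulEquiv.subgroupCongr hrange.symm).toMonoidHom)
  have key : ∀ (x : PushoutI (phiF incl cj)) (hx : L x ∈ Delta N q), χ ⟨L x, hx⟩ = Ψ x := by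
    intro x hx
    show Ψ (e.symm (MulEquiv.subgroupCongr hrange.symm ⟨L x, hx⟩)) = Ψ x
    congr 1
    rw [MulEquiv.symm_apply_eq]
    apply Subtype.ext
    rw [MonoidHom.ofInjective_apply]
    rfl
  refine ⟨χ, fun γ => ?_, fun γ => ?_⟩
  · have h1 : L (PushoutI.of (φ := phiF incl cj) false γ) = iotaF N γ := PushoutI.lift_of _ _ _ _
    have h2 := key (PushoutI.of (φ := phiF incl cj) false γ) (by rw [h1]; exact iotaF_mem_Delta γ)
    have h3 : Ψ (PushoutI.of (φ := phiF incl cj) false γ) = φ₁ γ := PushoutI.lift_of _ _ _ _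
    rw [h3] at h2
    rw [← h2]
    congr 1
  · have h1 : L (PushoutI.of (φ := phiF incl cj) true γ) = iotaT N q γ := PushoutI.lift_of _ _ _ _
    have h2 := key (PushoutI.of (φ := phiF incl cj) true γ) (by rw [h1]; exact iotaT_mem_Delta γ)
    have h3 : Ψ (PushoutI.of (φ := phiF incl cj) true γ) = φ₂ γ := PushoutI.lift_of _ _ _ _
    rw [h3] at h2
    rw [← h2]
    congr 1

/-- a homomorphism on `Δ` is determined by its restrictions to the two factors -/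
theorem glue_unique {A : Type*} [Group A] (χ χ' : ↥(Delta N q) →* A)
    (h1 : ∀ γ : ↥(Gamma0 N), χ ⟨iotaF N γ, iotaF_mem_Delta γ⟩ = χ' ⟨iotaF N γ, iotaF_mem_Delta γ⟩)
    (h2 : ∀ γ : ↥(Gamma0 N), χ ⟨iotaT N q γ, iotaT_mem_Delta γ⟩ =
      χ' ⟨iotaT N q γ, iotaT_mem_Delta γ⟩) : χ = χ' := by
  have hle : Delta N q ≤ (χ.eqLocus χ').map (Delta N q).subtype := by
    apply sup_le
    · rintro _ ⟨γ, rfl⟩
      exact ⟨⟨iotaF N γ, iotaF_mem_Delta γ⟩, h1 γ, rfl⟩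
    · rintro _ ⟨γ, rfl⟩
      exact ⟨⟨iotaT N q γ, iotaT_mem_Delta γ⟩, h2 γ, rfl⟩
  ext1 x
  obtain ⟨y, hy, hyx⟩ := hle x.2
  have : y = x := Subtype.ext hyx
  rw [← this]
  exact hy

end amalgam

/-! ### Concrete versions of the two maps `Γ₀(N q) → Γ₀(N)` -/

section concrete

variable (N q : ℕ) [Fact q.Prime]

theorem Gamma0_mul_le : Gamma0 (N * q) ≤ Gamma0 N := by
  intro g hg
  rw [mem_Gamma0_iff_dvd'] at hg ⊢
  push_cast at hg
  exact (dvd_mul_right _ _).trans hg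

/-- the inclusion `Γ₀(N q) → Γ₀(N)` -/
def inclH : ↥(Gamma0 (N * q)) →* ↥(Gamma0 N) := Subgroup.inclusion (Gamma0_mul_le N q)

theorem inclH_coe (h : ↥(Gamma0 (N * q))) : ((inclH N q h : ↥(Gamma0 N)) : SL(2, ℤ)) = h := rfl

/-- the matrix `(a, q b; c / q, d)` -/
def conjHfun (h : ↥(Gamma0 (N * q))) : ↥(Gamma0 N) :=
  ⟨⟨!![(h : SL(2, ℤ)) 0 0, (q : ℤ) * (h : SL(2, ℤ)) 0 1; (h : SL(2, ℤ)) 1 0 / (q : ℤ),
      (h : SL(2, ℤ)) 1 1], by
    have hq : (q : ℤ) ∣ (h : SL(2, ℤ)) 1 0 := by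
      have := (mem_Gamma0_iff_dvd' _).mp h.2
      push_cast at this
      exact (dvd_mul_left _ _).trans this
    have hdet := SLZ_det (h : SL(2, ℤ))
    obtain ⟨e, he⟩ := hq
    have hq0 : (q : ℤ) ≠ 0 := by exact_mod_cast NeZero.ne q
    rw [Matrix.det_fin_two_of, he, Int.mul_ediv_cancel_left _ hq0]
    rw [he] at hdet
    linear_combination hdet⟩, by
    rw [mem_Gamma0_iff_dvd']
    have hNq := (mem_Gamma0_iff_dvd' _).mp h.2
    push_cast at hNq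
    obtain ⟨e, he⟩ := hNq
    have hq0 : (q : ℤ) ≠ 0 := by exact_mod_cast NeZero.ne q
    show (N : ℤ) ∣ (h : SL(2, ℤ)) 1 0 / (q : ℤ)
    rw [he, mul_comm (N : ℤ), mul_assoc, Int.mul_ediv_cancel_left _ hq0]
    exact dvd_mul_right _ _⟩

theorem conjQ_conjHfun (h : ↥(Gamma0 (N * q))) :
    conjQ q ((conjHfun N q h : ↥(Gamma0 N)) : SL(2, ℤ)) = castQ (h : SL(2, ℤ)) := by
  have hq : (q : ℤ) ∣ (h : SL(2, ℤ)) 1 0 := by
    have := (mem_Gamma0_iff_dvd' _).mp h.2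
    push_cast at this
    exact (dvd_mul_left _ _).trans this
  have hq0 : (q : ℚ) ≠ 0 := Nat.cast_ne_zero.mpr (NeZero.ne q)
  have hq0' : (q : ℤ) ≠ 0 := by exact_mod_cast NeZero.ne q
  ext i j
  fin_cases i <;> fin_cases j
  · rfl
  · show (((q : ℤ) * (h : SL(2, ℤ)) 0 1 : ℤ) : ℚ) / q = ((h : SL(2, ℤ)) 0 1 : ℚ)
    push_cast
    field_simp
  · show (q : ℚ) * (((h : SL(2, ℤ)) 1 0 / (q : ℤ) : ℤ) : ℚ) = ((h : SL(2, ℤ)) 1 0 : ℚ)
    obtain ⟨e, he⟩ := hq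
    rw [he, Int.mul_ediv_cancel_left _ hq0']
    push_cast
    rfl
  · rfl

/-- `γ' ↦ δ γ' δ⁻¹`, `Γ₀(N q) → Γ₀(N)`, as a homomorphism -/
def conjH : ↥(Gamma0 (N * q)) →* ↥(Gamma0 N) where
  toFun := conjHfun N q
  map_one' := by
    apply iotaT_injective (q := q)
    rw [iotaT_apply, conjQ_conjHfun, map_one, Subgroup.coe_one, map_one]
  map_mul' a b := by
    apply iotaT_injective (q := q)
    rw [map_mul, iotaT_apply, iotaT_apply, iotaT_apply, conjQ_conjHfun, conjQ_conjHfun,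
      conjQ_conjHfun, Subgroup.coe_mul, map_mul]

theorem conjQ_conjH (h : ↥(Gamma0 (N * q))) :
    conjQ q ((conjH N q h : ↥(Gamma0 N)) : SL(2, ℤ)) = castQ (h : SL(2, ℤ)) :=
  conjQ_conjHfun N q h

@[simp] theorem conjH_00 (h : ↥(Gamma0 (N * q))) :
    ((conjH N q h : ↥(Gamma0 N)) : SL(2, ℤ)) 0 0 = (h : SL(2, ℤ)) 0 0 := rfl
@[simp] theorem conjH_01 (h : ↥(Gamma0 (N * q))) :
    ((conjH N q h : ↥(Gamma0 N)) : SL(2, ℤ)) 0 1 = (q : ℤ) * (h : SL(2, ℤ)) 0 1 := rfl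
@[simp] theorem conjH_11 (h : ↥(Gamma0 (N * q))) :
    ((conjH N q h : ↥(Gamma0 N)) : SL(2, ℤ)) 1 1 = (h : SL(2, ℤ)) 1 1 := rfl
theorem conjH_10 (h : ↥(Gamma0 (N * q))) :
    (q : ℤ) * ((conjH N q h : ↥(Gamma0 N)) : SL(2, ℤ)) 1 0 = (h : SL(2, ℤ)) 1 0 := by
  have hq : (q : ℤ) ∣ (h : SL(2, ℤ)) 1 0 := by
    have := (mem_Gamma0_iff_dvd' _).mp h.2
    push_cast at this
    exact (dvd_mul_left _ _).trans this
  exact Int.mul_ediv_cancel' hq

/-- any map with the entries of `δ γ' δ⁻¹` satisfies the hypothesis `hcj` of `exists_glue` -/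
theorem conjQ_eq_castQ_of_entries (g h : SL(2, ℤ)) (h00 : g 0 0 = h 0 0)
    (h01 : g 0 1 = (q : ℤ) * h 0 1) (h10 : (q : ℤ) * g 1 0 = h 1 0) (h11 : g 1 1 = h 1 1) :
    conjQ q g = castQ h := by
  have hq0 : (q : ℚ) ≠ 0 := Nat.cast_ne_zero.mpr (NeZero.ne q)
  ext i j
  fin_cases i <;> fin_cases j
  · show (g 0 0 : ℚ) = (h 0 0 : ℚ)
    rw [h00]
  · show (g 0 1 : ℚ) / q = (h 0 1 : ℚ)
    rw [h01]
    push_cast
    field_simp
  · show (q : ℚ) * (g 1 0 : ℚ) = (h 1 0 : ℚ)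
    rw [← h10]
    push_cast
    rfl
  · show (g 1 1 : ℚ) = (h 1 1 : ℚ)
    rw [h11]

/-- **Gluing**, concrete form. -/
theorem exists_glue' (hqN : Nat.Coprime q N) {A : Type*} [Group A] (φ₁ φ₂ : ↥(Gamma0 N) →* A)
    (hφ : ∀ h : ↥(Gamma0 (N * q)), φ₁ (inclH N q h) = φ₂ (conjH N q h)) :
    ∃ χ : ↥(Delta N q) →* A,
      (∀ γ : ↥(Gamma0 N), χ ⟨iotaF N γ, iotaF_mem_Delta γ⟩ = φ₁ γ) ∧
      (∀ γ : ↥(Gamma0 N), χ ⟨iotaT N q γ, iotaT_mem_Delta γ⟩ = φ₂ γ) :=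
  exists_glue hqN (inclH N q) (conjH N q) (inclH_coe N q) (conjQ_conjH N q) φ₁ φ₂ hφ

end concrete

end Fermat.Agent.S41lib.TREE
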