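/-
S41lib / TREE / Generation  (helper3).

Explicit elements of `Δ = ⟨Γ₀(N), δ⁻¹ Γ₀(N) δ⟩ ≤ SL(2, ℚ)`: `diag(q, 1/q)`, `E₁₂(x)`, `E₂₁(N x)` for
`x ∈ ℤ[1/q]`, and what a homomorphism `χ : Δ → A` (with `A` commutative without `q`-torsion) that
kills the parabolic elements of `Γ₀(N)` does on them.
-/
import Mathlib
import Fermat.Agent.S41lib.TREE.Amalgam

set_option autoImplicit false
set_option linter.unusedSectionVars false
set_option linter.unusedVariables false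

noncomputable section

namespace Fermat.Agent.S41lib.TREE

open Matrix CongruenceSubgroup
open scoped MatrixGroups

/-! ### Elementary and diagonal matrices in `SL(2, ℚ)` -/

/-- `(1 x; 0 1)` -/
def E12 (x : ℚ) : SLQ := ⟨!![1, x; 0, 1], by simp [Matrix.det_fin_two_of]⟩

/-- `(1 0; x 1)` -/
def E21 (x : ℚ) : SLQ := ⟨!![1, 0; x, 1], by simp [Matrix.det_fin_two_of]⟩

/-- `diag(u, u⁻¹)` -/
def diagU (u : ℚ) (hu : u ≠ 0) : SLQ := ⟨!![u, 0; 0, u⁻¹], by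
  rw [Matrix.det_fin_two_of, mul_inv_cancel₀ hu]; ring⟩

@[simp] theorem E12_00 (x : ℚ) : E12 x 0 0 = 1 := rfl
@[simp] theorem E12_01 (x : ℚ) : E12 x 0 1 = x := rfl
@[simp] theorem E12_10 (x : ℚ) : E12 x 1 0 = 0 := rfl
@[simp] theorem E12_11 (x : ℚ) : E12 x 1 1 = 1 := rfl
@[simp] theorem E21_00 (x : ℚ) : E21 x 0 0 = 1 := rfl
@[simp] theorem E21_01 (x : ℚ) : E21 x 0 1 = 0 := rfl
@[simp] theorem E21_10 (x : ℚ) : E21 x 1 0 = x := rfl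
@[simp] theorem E21_11 (x : ℚ) : E21 x 1 1 = 1 := rfl
@[simp] theorem diagU_00 (u : ℚ) (hu : u ≠ 0) : diagU u hu 0 0 = u := rfl
@[simp] theorem diagU_01 (u : ℚ) (hu : u ≠ 0) : diagU u hu 0 1 = 0 := rfl
@[simp] theorem diagU_10 (u : ℚ) (hu : u ≠ 0) : diagU u hu 1 0 = 0 := rfl
@[simp] theorem diagU_11 (u : ℚ) (hu : u ≠ 0) : diagU u hu 1 1 = u⁻¹ := rfl

theorem SLQ_ext {g h : SLQ} (h00 : g 0 0 = h 0 0) (h01 : g 0 1 = h 0 1)
    (h10 : g 1 0 = h 1 0) (h11 : g 1 1 = h 1 1) : g = h := by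
  ext i j
  fin_cases i <;> fin_cases j <;> assumption

theorem SLQ_mul_00 (g h : SLQ) : (g * h) 0 0 = g 0 0 * h 0 0 + g 0 1 * h 1 0 := by
  simp [Matrix.mul_apply, Fin.sum_univ_two]
theorem SLQ_mul_01 (g h : SLQ) : (g * h) 0 1 = g 0 0 * h 0 1 + g 0 1 * h 1 1 := by
  simp [Matrix.mul_apply, Fin.sum_univ_two]
theorem SLQ_mul_10 (g h : SLQ) : (g * h) 1 0 = g 1 0 * h 0 0 + g 1 1 * h 1 0 := by
  simp [Matrix.mul_apply, Fin.sum_univ_two]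
theorem SLQ_mul_11 (g h : SLQ) : (g * h) 1 1 = g 1 0 * h 0 1 + g 1 1 * h 1 1 := by
  simp [Matrix.mul_apply, Fin.sum_univ_two]

theorem SLQ_inv_00 (g : SLQ) : (g⁻¹) 0 0 = g 1 1 := by
  simp [Matrix.SpecialLinearGroup.coe_inv, Matrix.adjugate_fin_two]
theorem SLQ_inv_01 (g : SLQ) : (g⁻¹) 0 1 = - g 0 1 := by
  simp [Matrix.SpecialLinearGroup.coe_inv, Matrix.adjugate_fin_two]
theorem SLQ_inv_10 (g : SLQ) : (g⁻¹) 1 0 = - g 1 0 := by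
  simp [Matrix.SpecialLinearGroup.coe_inv, Matrix.adjugate_fin_two]
theorem SLQ_inv_11 (g : SLQ) : (g⁻¹) 1 1 = g 0 0 := by
  simp [Matrix.SpecialLinearGroup.coe_inv, Matrix.adjugate_fin_two]

theorem SLQ_det (g : SLQ) : g 0 0 * g 1 1 - g 0 1 * g 1 0 = 1 := by
  have h := g.det_coe
  rwa [Matrix.det_fin_two] at h

theorem E12_add (x y : ℚ) : E12 (x + y) = E12 x * E12 y := by
  apply SLQ_ext <;> simp [SLQ_mul_00, SLQ_mul_01, SLQ_mul_10, SLQ_mul_11, add_comm]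

theorem E21_add (x y : ℚ) : E21 (x + y) = E21 x * E21 y := by
  apply SLQ_ext <;> simp [SLQ_mul_00, SLQ_mul_01, SLQ_mul_10, SLQ_mul_11]

theorem E12_zero : E12 0 = 1 := by
  apply SLQ_ext <;> simp

theorem E21_zero : E21 0 = 1 := by
  apply SLQ_ext <;> simp

theorem E12_pow (x : ℚ) (n : ℕ) : E12 x ^ n = E12 (n * x) := by
  induction n with
  | zero => simp [E12_zero]
  | succ n ih =>
    rw [pow_succ, ih, ← E12_add]
    congr 1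
    push_cast
    ring

theorem E21_pow (x : ℚ) (n : ℕ) : E21 x ^ n = E21 (n * x) := by
  induction n with
  | zero => simp [E21_zero]
  | succ n ih =>
    rw [pow_succ, ih, ← E21_add]
    congr 1
    push_cast
    ring

theorem diagU_inv (u : ℚ) (hu : u ≠ 0) : (diagU u hu)⁻¹ = diagU u⁻¹ (inv_ne_zero hu) := by
  apply SLQ_ext <;> simp [SLQ_inv_00, SLQ_inv_01, SLQ_inv_10, SLQ_inv_11]

theorem diagU_mul_E12 (u : ℚ) (hu : u ≠ 0) (x : ℚ) :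
    diagU u hu * E12 x * (diagU u hu)⁻¹ = E12 (u ^ 2 * x) := by
  rw [diagU_inv]
  apply SLQ_ext <;> simp [SLQ_mul_00, SLQ_mul_01, SLQ_mul_10, SLQ_mul_11] <;>
    (try field_simp) <;> (try ring)

theorem diagU_inv_mul_E12 (u : ℚ) (hu : u ≠ 0) (x : ℚ) :
    (diagU u hu)⁻¹ * E12 x * diagU u hu = E12 (x / u ^ 2) := by
  rw [diagU_inv]
  apply SLQ_ext <;> simp [SLQ_mul_00, SLQ_mul_01, SLQ_mul_10, SLQ_mul_11] <;>
    (try field_simp) <;> (try ring)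

theorem diagU_mul_E21 (u : ℚ) (hu : u ≠ 0) (x : ℚ) :
    diagU u hu * E21 x * (diagU u hu)⁻¹ = E21 (x / u ^ 2) := by
  rw [diagU_inv]
  apply SLQ_ext <;> simp [SLQ_mul_00, SLQ_mul_01, SLQ_mul_10, SLQ_mul_11] <;>
    (try field_simp) <;> (try ring)

theorem diagU_pow (u : ℚ) (hu : u ≠ 0) (n : ℕ) :
    diagU u hu ^ n = diagU (u ^ n) (pow_ne_zero n hu) := by
  induction n with
  | zero => apply SLQ_ext <;> simp
  | succ n ih =>
    rw [pow_succ, ih]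
    apply SLQ_ext <;> simp [SLQ_mul_00, SLQ_mul_01, SLQ_mul_10, SLQ_mul_11, pow_succ] <;>
      (try field_simp) <;> (try ring)

/-- **Whitehead**: `diag(u, 1/u) = E₂₁(1/u - 1) E₁₂(1) E₂₁(u - 1) E₁₂(-1/u)` -/
theorem diagU_eq_four (u : ℚ) (hu : u ≠ 0) :
    diagU u hu = E21 (u⁻¹ - 1) * E12 1 * E21 (u - 1) * E12 (-u⁻¹) := by
  apply SLQ_ext <;> simp only [SLQ_mul_00, SLQ_mul_01, SLQ_mul_10, SLQ_mul_11, E12_00, E12_01,
    E12_10, E12_11, E21_00, E21_01, E21_10, E21_11, diagU_00, diagU_01, diagU_10, diagU_11] <;>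
    field_simp <;> ring

/-! ### Integral elementary matrices in `Γ₀(N)` -/

section mem

variable {N q : ℕ} [Fact q.Prime]

/-- `(1 m; 0 1) ∈ Γ₀(N)` -/
def upInt (N : ℕ) (m : ℤ) : ↥(Gamma0 N) :=
  ⟨⟨!![1, m; 0, 1], by simp [Matrix.det_fin_two_of]⟩, by
    rw [mem_Gamma0_iff_dvd']
    exact dvd_zero _⟩

/-- `(1 0; N m 1) ∈ Γ₀(N)` -/
def loInt (N : ℕ) (m : ℤ) : ↥(Gamma0 N) :=
  ⟨⟨!![1, 0; (N : ℤ) * m, 1], by simp [Matrix.det_fin_two_of]⟩, by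
    rw [mem_Gamma0_iff_dvd']
    exact dvd_mul_right _ _⟩

theorem iotaF_upInt (m : ℤ) : iotaF N (upInt N m) = E12 (m : ℚ) := by
  apply SLQ_ext <;> simp [upInt, iotaF_apply]

theorem iotaF_loInt (m : ℤ) : iotaF N (loInt N m) = E21 ((N : ℚ) * m) := by
  apply SLQ_ext <;> simp [loInt, iotaF_apply]

theorem iotaT_upInt (m : ℤ) : iotaT N q (upInt N m) = E12 ((m : ℚ) / q) := by
  apply SLQ_ext
  · simp [upInt, iotaT_apply, conjQ_00]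
  · simp [upInt, iotaT_apply, conjQ_01]
  · simp [upInt, iotaT_apply, conjQ_10]
  · simp [upInt, iotaT_apply, conjQ_11]

theorem trace_upInt (m : ℤ) :
    (((upInt N m : ↥(Gamma0 N)) : SL(2, ℤ)) : Matrix (Fin 2) (Fin 2) ℤ).trace ^ 2 = 4 := by
  simp [upInt, Matrix.trace_fin_two]

theorem trace_loInt (m : ℤ) :
    (((loInt N m : ↥(Gamma0 N)) : SL(2, ℤ)) : Matrix (Fin 2) (Fin 2) ℤ).trace ^ 2 = 4 := by
  simp [loInt, Matrix.trace_fin_two]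

theorem cast_q_ne_zero : (q : ℚ) ≠ 0 := Nat.cast_ne_zero.mpr (NeZero.ne q)

/-- `diag(q, 1/q)` -/
def diagQ (q : ℕ) [Fact q.Prime] : SLQ := diagU (q : ℚ) cast_q_ne_zero

variable (hqN : Nat.Coprime q N)

include hqN in
/-- **`diag(q, 1/q) ∈ Δ`.** -/
theorem diagQ_mem : diagQ q ∈ Delta N q := by
  -- Bezout: `q x + N y = 1`
  have hcop : IsCoprime (q : ℤ) (N : ℤ) := by
    rw [Int.isCoprime_iff_gcd_eq_one, Int.gcd_natCast_natCast]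
    exact hqN
  obtain ⟨x, y, hxy⟩ := hcop
  -- `γ = (q, -y; N, x)`
  let γ0 : SL(2, ℤ) := ⟨!![(q : ℤ), -y; (N : ℤ), x], by
    rw [Matrix.det_fin_two_of]
    linear_combination hxy⟩
  have hγ0 : γ0 ∈ Gamma0 N := by
    rw [mem_Gamma0_iff_dvd']
    exact dvd_refl _
  let γ : ↥(Gamma0 N) := ⟨γ0, hγ0⟩
  have hq0 : (q : ℚ) ≠ 0 := cast_q_ne_zero
  have key : diagQ q = iotaF N γ * iotaT N q (upInt N y) * iotaF N (loInt N (-(q : ℤ))) := by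
    rw [iotaT_upInt, iotaF_loInt]
    have hxy' : (x : ℚ) * q + y * N = 1 := by exact_mod_cast hxy
    apply SLQ_ext
    · simp only [diagQ, diagU_00, SLQ_mul_00, SLQ_mul_01, SLQ_mul_10, SLQ_mul_11, E12_00, E12_01,
        E12_10, E12_11, E21_00, E21_01, E21_10, E21_11, iotaF_apply, castQ_apply]
      show (q : ℚ) = (((q : ℤ) : ℚ) * 1 + ((-y : ℤ) : ℚ) * 0) * 1 +
        (((q : ℤ) : ℚ) * ((y : ℚ) / q) + ((-y : ℤ) : ℚ) * 1) * ((N : ℚ) * ((-(q : ℤ) : ℤ) : ℚ))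
      push_cast
      field_simp
      ring
    · simp only [diagQ, diagU_01, SLQ_mul_00, SLQ_mul_01, SLQ_mul_10, SLQ_mul_11, E12_00, E12_01,
        E12_10, E12_11, E21_00, E21_01, E21_10, E21_11, iotaF_apply, castQ_apply]
      show (0 : ℚ) = (((q : ℤ) : ℚ) * 1 + ((-y : ℤ) : ℚ) * 0) * 0 +
        (((q : ℤ) : ℚ) * ((y : ℚ) / q) + ((-y : ℤ) : ℚ) * 1) * 1
      push_cast
      field_simp
      ring
    · simp only [diagQ, diagU_10, SLQ_mul_00, SLQ_mul_01, SLQ_mul_10, SLQ_mul_11, E12_00, E12_01,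
        E12_10, E12_11, E21_00, E21_01, E21_10, E21_11, iotaF_apply, castQ_apply]
      show (0 : ℚ) = ((((N : ℤ) : ℤ) : ℚ) * 1 + ((x : ℤ) : ℚ) * 0) * 1 +
        ((((N : ℤ) : ℤ) : ℚ) * ((y : ℚ) / q) + ((x : ℤ) : ℚ) * 1) * ((N : ℚ) * ((-(q : ℤ) : ℤ) : ℚ))
      push_cast
      field_simp
      linear_combination (N : ℚ) * hxy'
    · simp only [diagQ, diagU_11, SLQ_mul_00, SLQ_mul_01, SLQ_mul_10, SLQ_mul_11, E12_00, E12_01,
        E12_10, E12_11, E21_00, E21_01, E21_10, E21_11, iotaF_apply, castQ_apply]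
      show (q : ℚ)⁻¹ = ((((N : ℤ) : ℤ) : ℚ) * 1 + ((x : ℤ) : ℚ) * 0) * 0 +
        ((((N : ℤ) : ℤ) : ℚ) * ((y : ℚ) / q) + ((x : ℤ) : ℚ) * 1) * 1
      push_cast
      field_simp
      linear_combination (-1 : ℚ) * hxy'
  rw [key]
  exact mul_mem (mul_mem (iotaF_mem_Delta _) (iotaT_mem_Delta _)) (iotaF_mem_Delta _)

include hqN in
theorem E12_div_pow_odd_mem (m : ℤ) (j : ℕ) : E12 ((m : ℚ) / q ^ (2 * j + 1)) ∈ Delta N q := by
  induction j with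
  | zero =>
    have : E12 ((m : ℚ) / q ^ (2 * 0 + 1)) = iotaT N q (upInt N m) := by
      rw [iotaT_upInt]; simp
    rw [this]
    exact iotaT_mem_Delta _
  | succ j ih =>
    have hq0 : (q : ℚ) ≠ 0 := cast_q_ne_zero
    have : E12 ((m : ℚ) / q ^ (2 * (j + 1) + 1)) =
        (diagQ q)⁻¹ * E12 ((m : ℚ) / q ^ (2 * j + 1)) * diagQ q := by
      rw [diagQ, diagU_inv_mul_E12]
      congr 1
      field_simp
      ring
    rw [this]
    exact mul_mem (mul_mem (inv_mem (diagQ_mem hqN)) ih) (diagQ_mem hqN)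

include hqN in
/-- `E₁₂(m / q^k) ∈ Δ` -/
theorem E12_div_pow_mem (m : ℤ) (k : ℕ) : E12 ((m : ℚ) / q ^ k) ∈ Delta N q := by
  have hq0 : (q : ℚ) ≠ 0 := cast_q_ne_zero
  have h := E12_div_pow_odd_mem hqN (m * (q : ℤ) ^ (k + 1)) k
  have e : (((m * (q : ℤ) ^ (k + 1) : ℤ)) : ℚ) / q ^ (2 * k + 1) = (m : ℚ) / q ^ k := by
    push_cast
    field_simp
    ring
  rwa [e] at h

include hqN in
theorem E21_div_pow_even_mem (m : ℤ) (j : ℕ) :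
    E21 ((N : ℚ) * m / q ^ (2 * j)) ∈ Delta N q := by
  induction j with
  | zero =>
    have : E21 ((N : ℚ) * m / q ^ (2 * 0)) = iotaF N (loInt N m) := by
      rw [iotaF_loInt]; simp
    rw [this]
    exact iotaF_mem_Delta _
  | succ j ih =>
    have hq0 : (q : ℚ) ≠ 0 := cast_q_ne_zero
    have : E21 ((N : ℚ) * m / q ^ (2 * (j + 1))) =
        diagQ q * E21 ((N : ℚ) * m / q ^ (2 * j)) * (diagQ q)⁻¹ := by
      rw [diagQ, diagU_mul_E21]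
      congr 1
      field_simp
      ring
    rw [this]
    exact mul_mem (mul_mem (diagQ_mem hqN) ih) (inv_mem (diagQ_mem hqN))

include hqN in
/-- `E₂₁(N m / q^k) ∈ Δ` -/
theorem E21_div_pow_mem (m : ℤ) (k : ℕ) : E21 ((N : ℚ) * m / q ^ k) ∈ Delta N q := by
  have hq0 : (q : ℚ) ≠ 0 := cast_q_ne_zero
  have h := E21_div_pow_even_mem hqN (m * (q : ℤ) ^ k) k
  have e : (N : ℚ) * ((m * (q : ℤ) ^ k : ℤ) : ℚ) / q ^ (2 * k) = (N : ℚ) * m / q ^ k := by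
    push_cast
    field_simp
    ring
  rwa [e] at h

include hqN in
/-- `diag(q^k, q^{-k}) ∈ Δ` -/
theorem diagU_pow_mem (k : ℕ) :
    diagU ((q : ℚ) ^ k) (pow_ne_zero k cast_q_ne_zero) ∈ Delta N q := by
  have := pow_mem (diagQ_mem (N := N) hqN) k
  rwa [diagQ, diagU_pow] at this

end mem

/-! ### Homomorphisms on `Δ` killing the parabolic elements of `Γ₀(N)` -/

section chi

variable {N q : ℕ} [Fact q.Prime] (hqN : Nat.Coprime q N)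
  {A : Type*} [CommGroup A] (hA : ∀ a : A, a ^ q = 1 → a = 1)
  (χ : ↥(Delta N q) →* A)
  (hpar : ∀ γ : ↥(Gamma0 N),
    (((γ : SL(2, ℤ)) : Matrix (Fin 2) (Fin 2) ℤ)).trace ^ 2 = 4 →
      χ ⟨iotaF N γ, iotaF_mem_Delta γ⟩ = 1)

include hA in
theorem eq_one_of_pow_q_pow (k : ℕ) (a : A) (h : a ^ (q ^ k) = 1) : a = 1 := by
  induction k generalizing a with
  | zero => simpa using h
  | succ k ih =>
    apply ih
    apply hA
    rw [← pow_mul, ← pow_succ]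
    exact h

include hA hpar in
/-- `χ` kills `E₁₂(x)`, `x ∈ ℤ[1/q]` -/
theorem chi_E12 (x : ℚ) (hx : E12 x ∈ Delta N q) (k : ℕ) (m : ℤ) (hxm : x * (q : ℚ) ^ k = m) :
    χ ⟨E12 x, hx⟩ = 1 := by
  apply eq_one_of_pow_q_pow hA k
  rw [← map_pow]
  have e : (⟨E12 x, hx⟩ : ↥(Delta N q)) ^ (q ^ k) =
      ⟨iotaF N (upInt N m), iotaF_mem_Delta _⟩ := by
    apply Subtype.ext
    rw [Subgroup.coe_pow]
    show E12 x ^ (q ^ k) = iotaF N (upInt N m)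
    rw [E12_pow, iotaF_upInt, ← hxm]
    congr 1
    push_cast
    ring
  rw [e]
  exact hpar _ (trace_upInt m)

include hA hpar in
/-- `χ` kills `E₂₁(N x)`, `x ∈ ℤ[1/q]` -/
theorem chi_E21 (x : ℚ) (hx : E21 x ∈ Delta N q) (k : ℕ) (m : ℤ)
    (hxm : x * (q : ℚ) ^ k = (N : ℚ) * m) : χ ⟨E21 x, hx⟩ = 1 := by
  apply eq_one_of_pow_q_pow hA k
  rw [← map_pow]
  have e : (⟨E21 x, hx⟩ : ↥(Delta N q)) ^ (q ^ k) =
      ⟨iotaF N (loInt N m), iotaF_mem_Delta _⟩ := by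
    apply Subtype.ext
    rw [Subgroup.coe_pow]
    show E21 x ^ (q ^ k) = iotaF N (loInt N m)
    rw [E21_pow, iotaF_loInt, ← hxm]
    congr 1
    push_cast
    ring
  rw [e]
  exact hpar _ (trace_loInt m)

include hqN hA hpar in
/-- `χ` kills `diag(u, 1/u)` for `u = q^k ≡ 1 mod N` -/
theorem chi_diagU (k : ℕ) (hk : (N : ℤ) ∣ (q : ℤ) ^ k - 1)
    (hmem : diagU ((q : ℚ) ^ k) (pow_ne_zero k cast_q_ne_zero) ∈ Delta N q) :
    χ ⟨diagU ((q : ℚ) ^ k) (pow_ne_zero k cast_q_ne_zero), hmem⟩ = 1 := by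
  obtain ⟨m, hm⟩ := hk
  have hq0 : (q : ℚ) ≠ 0 := cast_q_ne_zero
  have hu0 : (q : ℚ) ^ k ≠ 0 := pow_ne_zero k hq0
  have hm' : (q : ℚ) ^ k - 1 = (N : ℚ) * m := by exact_mod_cast hm
  have e1 : ((q : ℚ) ^ k)⁻¹ - 1 = (N : ℚ) * ((-m : ℤ) : ℚ) / (q : ℚ) ^ k := by
    push_cast
    field_simp
    linear_combination (-1 : ℚ) * hm'
  have e3 : (q : ℚ) ^ k - 1 = (N : ℚ) * ((m : ℤ) : ℚ) / (q : ℚ) ^ 0 := by
    rw [pow_zero, div_one]; exact hm'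
  have e2 : (1 : ℚ) = ((1 : ℤ) : ℚ) / (q : ℚ) ^ 0 := by simp
  have e4 : -((q : ℚ) ^ k)⁻¹ = ((-1 : ℤ) : ℚ) / (q : ℚ) ^ k := by
    push_cast
    field_simp
  have h1 : E21 (((q : ℚ) ^ k)⁻¹ - 1) ∈ Delta N q := by
    rw [e1]; exact E21_div_pow_mem hqN _ _
  have h2 : E12 1 ∈ Delta N q := by
    rw [e2]; exact E12_div_pow_mem hqN _ _
  have h3 : E21 ((q : ℚ) ^ k - 1) ∈ Delta N q := by
    rw [e3]; exact E21_div_pow_mem hqN _ _
  have h4 : E12 (-((q : ℚ) ^ k)⁻¹) ∈ Delta N q := by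
    rw [e4]; exact E12_div_pow_mem hqN _ _
  have e : (⟨diagU ((q : ℚ) ^ k) hu0, hmem⟩ : ↥(Delta N q)) =
      ⟨_, h1⟩ * ⟨_, h2⟩ * ⟨_, h3⟩ * ⟨_, h4⟩ := by
    apply Subtype.ext
    exact diagU_eq_four _ hu0
  rw [e, map_mul, map_mul, map_mul]
  rw [chi_E21 hA χ hpar _ h1 k (-m) (by rw [e1]; field_simp),
    chi_E12 hA χ hpar _ h2 0 1 (by simp),
    chi_E21 hA χ hpar _ h3 0 m (by rw [pow_zero, mul_one]; exact hm'),
    chi_E12 hA χ hpar _ h4 k (-1) (by rw [e4]; field_simp)]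
  simp

/-- the matrix identity behind (P3ℤ) -/
theorem row_key_aux00 (a b C D a' b' u : ℚ) (hu : u ≠ 0) (hdet : a * D - b * C = 1)
    (hdet' : a' * (D * u ^ 2) - b' * C = 1) :
    a' = 1 * (u⁻¹ * a * u⁻¹ + 0) + (b' * a - a' * b * u ^ 2) / u ^ 2 * (u * C * u⁻¹) := by
  have hv : u * u⁻¹ = 1 := mul_inv_cancel₀ hu
  rw [div_eq_mul_inv, ← inv_pow]
  generalize u⁻¹ = v at *
  have h2 : u ^ 2 * v ^ 2 = 1 := by rw [← mul_pow, hv, one_pow]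
  calc a' = a' * (u ^ 2 * v ^ 2) := by rw [h2, mul_one]
    _ = a * v ^ 2 + (b' * a * C - a' * u ^ 2 * (b * C)) * v ^ 2 := by
        have e1 : b' * C = a' * (D * u ^ 2) - 1 := by linarith
        have e2 : b * C = a * D - 1 := by linarith
        rw [mul_assoc b' a C, mul_comm a C, ← mul_assoc b' C a, e1, e2]; ring
    _ = 1 * (v * a * v + 0) + (b' * a - a' * b * u ^ 2) * v ^ 2 * (u * C * v) := by
        have : u * C * v = C := by rw [mul_comm u C, mul_assoc, hv, mul_one]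
        rw [this]; ring

theorem row_key_aux01 (a b C D a' b' u : ℚ) (hu : u ≠ 0) (hdet : a * D - b * C = 1)
    (hdet' : a' * (D * u ^ 2) - b' * C = 1) :
    b' = 1 * (u⁻¹ * b * u) + (b' * a - a' * b * u ^ 2) / u ^ 2 * (u * D * u) := by
  have hv : u * u⁻¹ = 1 := mul_inv_cancel₀ hu
  rw [div_eq_mul_inv, ← inv_pow]
  generalize u⁻¹ = v at *
  have h2 : u ^ 2 * v ^ 2 = 1 := by rw [← mul_pow, hv, one_pow]
  have e1 : a' * (D * u ^ 2) = 1 + b' * C := by linarith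
  have e2 : a * D = 1 + b * C := by linarith
  calc b' = b + (b' * (1 + b * C) - b * (1 + b' * C)) := by ring
    _ = b + (b' * (a * D) - b * (a' * (D * u ^ 2))) := by rw [e1, e2]
    _ = b * (u * v) + (b' * a - a' * b * u ^ 2) * D * (u ^ 2 * v ^ 2) := by rw [h2, hv]; ring
    _ = 1 * (v * b * u) + (b' * a - a' * b * u ^ 2) * v ^ 2 * (u * D * u) := by ring

theorem row_key (G G' : SLQ) (u : ℚ) (hu : u ≠ 0)
    (h10 : G' 1 0 = G 1 0) (h11 : G' 1 1 = G 1 1 * u ^ 2) :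
    G' = E12 ((G' 0 1 * G 0 0 - G' 0 0 * G 0 1 * u ^ 2) / u ^ 2) *
      ((diagU u hu)⁻¹ * G * (diagU u hu)⁻¹) := by
  have hdet := SLQ_det G
  have hdet' := SLQ_det G'
  rw [h10, h11] at hdet'
  rw [diagU_inv]
  have hv : u * u⁻¹ = 1 := mul_inv_cancel₀ hu
  apply SLQ_ext
  · simp only [SLQ_mul_00, SLQ_mul_01, SLQ_mul_10, SLQ_mul_11, E12_00, E12_01, E12_10, E12_11,
      diagU_00, diagU_01, diagU_10, diagU_11, inv_inv]
    have := row_key_aux00 (G 0 0) (G 0 1) (G 1 0) (G 1 1) (G' 0 0) (G' 0 1) u hu hdet hdet'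
    refine this.trans ?_
    ring
  · simp only [SLQ_mul_00, SLQ_mul_01, SLQ_mul_10, SLQ_mul_11, E12_00, E12_01, E12_10, E12_11,
      diagU_00, diagU_01, diagU_10, diagU_11, inv_inv]
    have := row_key_aux01 (G 0 0) (G 0 1) (G 1 0) (G 1 1) (G' 0 0) (G' 0 1) u hu hdet hdet'
    refine this.trans ?_
    ring
  · simp only [SLQ_mul_00, SLQ_mul_01, SLQ_mul_10, SLQ_mul_11, E12_00, E12_01, E12_10, E12_11,
      diagU_00, diagU_01, diagU_10, diagU_11, inv_inv]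
    rw [h10]
    have : u * G 1 0 * u⁻¹ = G 1 0 := by rw [mul_comm u, mul_assoc, hv, mul_one]
    refine this.symm.trans ?_
    ring
  · simp only [SLQ_mul_00, SLQ_mul_01, SLQ_mul_10, SLQ_mul_11, E12_00, E12_01, E12_10, E12_11,
      diagU_00, diagU_01, diagU_10, diagU_11, inv_inv]
    rw [h11]
    ring

include hqN hA hpar in
/-- **(P3ℤ)**: `χ(γ')= χ(γ)` if `γ, γ' ∈ Γ₀(N)` have bottom rows `(C, D)`, `(C, D q^{2k})`
with `q^k ≡ 1 mod N`. -/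
theorem chi_iotaF_eq_of_row (γ γ' : ↥(Gamma0 N)) (k : ℕ) (hk : (N : ℤ) ∣ (q : ℤ) ^ k - 1)
    (h10 : (γ' : SL(2, ℤ)) 1 0 = (γ : SL(2, ℤ)) 1 0)
    (h11 : (γ' : SL(2, ℤ)) 1 1 = (γ : SL(2, ℤ)) 1 1 * (q : ℤ) ^ (2 * k)) :
    χ ⟨iotaF N γ', iotaF_mem_Delta γ'⟩ = χ ⟨iotaF N γ, iotaF_mem_Delta γ⟩ := by
  have hq0 : (q : ℚ) ≠ 0 := cast_q_ne_zero
  have hu0 : (q : ℚ) ^ k ≠ 0 := pow_ne_zero k hq0
  have hTmem : diagU ((q : ℚ) ^ k) hu0 ∈ Delta N q := diagU_pow_mem hqN k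
  have hu2 : ((q : ℚ) ^ k) ^ 2 = (q : ℚ) ^ (2 * k) := by rw [← pow_mul, mul_comm]
  have h10Q : iotaF N γ' 1 0 = iotaF N γ 1 0 := by
    simp only [iotaF_apply, castQ_apply]; rw [h10]
  have h11Q : iotaF N γ' 1 1 = iotaF N γ 1 1 * ((q : ℚ) ^ k) ^ 2 := by
    simp only [iotaF_apply, castQ_apply]; rw [h11, hu2]; push_cast; rfl
  have key := row_key (iotaF N γ) (iotaF N γ') ((q : ℚ) ^ k) hu0 h10Q h11Q
  set m : ℤ := (γ' : SL(2, ℤ)) 0 1 * (γ : SL(2, ℤ)) 0 0 -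
    (γ' : SL(2, ℤ)) 0 0 * (γ : SL(2, ℤ)) 0 1 * (q : ℤ) ^ (2 * k) with hm
  have hx : (iotaF N γ' 0 1 * iotaF N γ 0 0 - iotaF N γ' 0 0 * iotaF N γ 0 1 * ((q : ℚ) ^ k) ^ 2) /
      ((q : ℚ) ^ k) ^ 2 = (m : ℚ) / (q : ℚ) ^ (2 * k) := by
    simp only [iotaF_apply, castQ_apply]
    rw [hu2, hm]
    push_cast
    rfl
  rw [hx] at key
  have hxmem : E12 ((m : ℚ) / q ^ (2 * k)) ∈ Delta N q := E12_div_pow_mem hqN m (2 * k)
  have e : (⟨iotaF N γ', iotaF_mem_Delta γ'⟩ : ↥(Delta N q)) =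
      ⟨_, hxmem⟩ * ((⟨diagU ((q : ℚ) ^ k) hu0, hTmem⟩ : ↥(Delta N q))⁻¹ *
        ⟨iotaF N γ, iotaF_mem_Delta γ⟩ * (⟨diagU ((q : ℚ) ^ k) hu0, hTmem⟩ : ↥(Delta N q))⁻¹) := by
    apply Subtype.ext
    exact key
  rw [e, map_mul, map_mul, map_mul, map_inv, chi_diagU hqN hA χ hpar k hk hTmem,
    chi_E12 hA χ hpar _ hxmem (2 * k) m (by field_simp)]
  simp

include hA hpar in
/-- **(H1)**: `χ ∘ ι_F` kills the upper unipotents of `Γ₀(N)` -/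
theorem chi_iotaF_upper (γ : ↥(Gamma0 N)) (h10 : (γ : SL(2, ℤ)) 1 0 = 0)
    (h11 : (γ : SL(2, ℤ)) 1 1 = 1) : χ ⟨iotaF N γ, iotaF_mem_Delta γ⟩ = 1 := by
  apply hpar
  have hdet := SLZ_det (γ : SL(2, ℤ))
  rw [h10, h11] at hdet
  have h00 : (γ : SL(2, ℤ)) 0 0 = 1 := by linarith
  rw [Matrix.trace_fin_two, h00, h11]
  norm_num

include hA hpar in
/-- **(H2)**: `χ ∘ ι_F` kills the lower unipotents of `Γ₀(N)` -/
theorem chi_iotaF_lower (γ : ↥(Gamma0 N)) (h01 : (γ : SL(2, ℤ)) 0 1 = 0)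
    (h11 : (γ : SL(2, ℤ)) 1 1 = 1) : χ ⟨iotaF N γ, iotaF_mem_Delta γ⟩ = 1 := by
  apply hpar
  have hdet := SLZ_det (γ : SL(2, ℤ))
  rw [h01, h11] at hdet
  have h00 : (γ : SL(2, ℤ)) 0 0 = 1 := by linarith
  rw [Matrix.trace_fin_two, h00, h11]
  norm_num

/-- the matrix identity behind the "unit" form (H3) -/
theorem unit_key (G : SLQ) (u : ℚ) (hu : u ≠ 0) (h11 : G 1 1 = u) :
    G = E12 (G 0 1 / u) * E21 (G 1 0 * u) * (diagU u hu)⁻¹ := by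
  have hdet := SLQ_det G
  rw [h11] at hdet
  rw [diagU_inv]
  have hv : u * u⁻¹ = 1 := mul_inv_cancel₀ hu
  apply SLQ_ext
  · simp only [SLQ_mul_00, SLQ_mul_01, SLQ_mul_10, SLQ_mul_11, E12_00, E12_01, E12_10, E12_11,
      E21_00, E21_01, E21_10, E21_11, diagU_00, diagU_01, diagU_10, diagU_11, inv_inv]
    have e : G 0 0 = (1 + G 0 1 * G 1 0) * u⁻¹ := by
      have : G 0 0 * u = 1 + G 0 1 * G 1 0 := by linarith
      rw [← this, mul_assoc, hv, mul_one]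
    refine e.trans ?_
    rw [div_eq_mul_inv]
    have : G 0 1 * u⁻¹ * (G 1 0 * u) = G 0 1 * G 1 0 * (u * u⁻¹) := by ring
    have h2 : (1 * 1 + G 0 1 * u⁻¹ * (G 1 0 * u)) * u⁻¹ + (1 * 0 + G 0 1 * u⁻¹ * 1) * 0 =
        (1 + G 0 1 * u⁻¹ * (G 1 0 * u)) * u⁻¹ := by ring
    rw [h2, this, hv, mul_one]
  · simp only [SLQ_mul_00, SLQ_mul_01, SLQ_mul_10, SLQ_mul_11, E12_00, E12_01, E12_10, E12_11,
      E21_00, E21_01, E21_10, E21_11, diagU_00, diagU_01, diagU_10, diagU_11, inv_inv]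
    rw [div_eq_mul_inv]
    have : G 0 1 = G 0 1 * (u * u⁻¹) := by rw [hv, mul_one]
    refine this.trans ?_
    ring
  · simp only [SLQ_mul_00, SLQ_mul_01, SLQ_mul_10, SLQ_mul_11, E12_00, E12_01, E12_10, E12_11,
      E21_00, E21_01, E21_10, E21_11, diagU_00, diagU_01, diagU_10, diagU_11, inv_inv]
    have : G 1 0 = G 1 0 * (u * u⁻¹) := by rw [hv, mul_one]
    refine this.trans ?_
    ring
  · simp only [SLQ_mul_00, SLQ_mul_01, SLQ_mul_10, SLQ_mul_11, E12_00, E12_01, E12_10, E12_11,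
      E21_00, E21_01, E21_10, E21_11, diagU_00, diagU_01, diagU_10, diagU_11, inv_inv]
    rw [h11]
    ring

include hqN hA hpar in
/-- **(H3)** ("unit" form): `χ(γ) = 1` if `γ ∈ Γ₀(N)` has `γ 1 1 = q^k ≡ 1 mod N`. -/
theorem chi_iotaF_eq_one_of_unit (γ : ↥(Gamma0 N)) (k : ℕ) (hk : (N : ℤ) ∣ (q : ℤ) ^ k - 1)
    (h11 : (γ : SL(2, ℤ)) 1 1 = (q : ℤ) ^ k) :
    χ ⟨iotaF N γ, iotaF_mem_Delta γ⟩ = 1 := by
  have hq0 : (q : ℚ) ≠ 0 := cast_q_ne_zero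
  have hu0 : (q : ℚ) ^ k ≠ 0 := pow_ne_zero k hq0
  have hTmem : diagU ((q : ℚ) ^ k) hu0 ∈ Delta N q := diagU_pow_mem hqN k
  have h11Q : iotaF N γ 1 1 = (q : ℚ) ^ k := by
    simp only [iotaF_apply, castQ_apply]; rw [h11]; push_cast; rfl
  have key := unit_key (iotaF N γ) ((q : ℚ) ^ k) hu0 h11Q
  obtain ⟨c, hc⟩ := (mem_Gamma0_iff_dvd' (γ : SL(2, ℤ))).mp γ.2
  have hx : iotaF N γ 0 1 / (q : ℚ) ^ k = (((γ : SL(2, ℤ)) 0 1 : ℤ) : ℚ) / (q : ℚ) ^ k := by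
    simp only [iotaF_apply, castQ_apply]
  have hy : iotaF N γ 1 0 * (q : ℚ) ^ k = (N : ℚ) * ((c * (q : ℤ) ^ k : ℤ) : ℚ) / (q : ℚ) ^ 0 := by
    simp only [iotaF_apply, castQ_apply]
    rw [hc]
    push_cast
    ring
  rw [hx, hy] at key
  have hxmem : E12 ((((γ : SL(2, ℤ)) 0 1 : ℤ) : ℚ) / (q : ℚ) ^ k) ∈ Delta N q :=
    E12_div_pow_mem hqN _ k
  have hymem : E21 ((N : ℚ) * ((c * (q : ℤ) ^ k : ℤ) : ℚ) / (q : ℚ) ^ 0) ∈ Delta N q :=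
    E21_div_pow_mem hqN _ 0
  have e : (⟨iotaF N γ, iotaF_mem_Delta γ⟩ : ↥(Delta N q)) =
      ⟨_, hxmem⟩ * ⟨_, hymem⟩ * (⟨diagU ((q : ℚ) ^ k) hu0, hTmem⟩ : ↥(Delta N q))⁻¹ := by
    apply Subtype.ext
    exact key
  rw [e, map_mul, map_mul, map_inv, chi_diagU hqN hA χ hpar k hk hTmem,
    chi_E12 hA χ hpar _ hxmem k _ (by field_simp),
    chi_E21 hA χ hpar _ hymem 0 (c * (q : ℤ) ^ k) (by simp)]
  simp

end chi

/-! ### The automorphism `Θ = conjugation by diag(1, q)` of `Δ`; it exchanges `ι_F` and `ι_T` up to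
the inner automorphism by `diag(q, 1/q) ∈ Δ`. -/

section theta

variable {N q : ℕ} [Fact q.Prime]

/-- `(a b; c d) ↦ (a, b/q; q c, d)` on `SL(2, ℚ)` -/
def thetaQ (q : ℕ) [Fact q.Prime] : SLQ →* SLQ where
  toFun g := ⟨!![g 0 0, g 0 1 / q; (q : ℚ) * g 1 0, g 1 1], by
    have hq : (q : ℚ) ≠ 0 := cast_q_ne_zero
    have h := SLQ_det g
    rw [Matrix.det_fin_two_of]
    have : g 0 1 / (q : ℚ) * ((q : ℚ) * g 1 0) = g 0 1 * g 1 0 := by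
      field_simp
    rw [this]
    exact h⟩
  map_one' := by
    ext i j
    fin_cases i <;> fin_cases j <;> simp
  map_mul' g h := by
    have hq : (q : ℚ) ≠ 0 := cast_q_ne_zero
    ext i j
    fin_cases i <;> fin_cases j <;>
      simp [Matrix.mul_apply, Fin.sum_univ_two] <;> field_simp <;> ring

theorem thetaQ_00 (g : SLQ) : thetaQ q g 0 0 = g 0 0 := rfl
theorem thetaQ_01 (g : SLQ) : thetaQ q g 0 1 = g 0 1 / q := rfl
theorem thetaQ_10 (g : SLQ) : thetaQ q g 1 0 = (q : ℚ) * g 1 0 := rfl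
theorem thetaQ_11 (g : SLQ) : thetaQ q g 1 1 = g 1 1 := rfl

theorem thetaQ_iotaF (γ : ↥(Gamma0 N)) : thetaQ q (iotaF N γ) = iotaT N q γ := by
  apply SLQ_ext <;> rfl

theorem thetaQ_iotaT (γ : ↥(Gamma0 N)) :
    thetaQ q (iotaT N q γ) = (diagQ q)⁻¹ * iotaF N γ * diagQ q := by
  have hq : (q : ℚ) ≠ 0 := cast_q_ne_zero
  rw [diagQ, diagU_inv]
  apply SLQ_ext
  · simp only [thetaQ_00, SLQ_mul_00, SLQ_mul_01, SLQ_mul_10, SLQ_mul_11, diagU_00, diagU_01,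
      diagU_10, diagU_11, iotaT_apply, conjQ_00, iotaF_apply, castQ_apply, inv_inv]
    field_simp
    ring
  · simp only [thetaQ_01, SLQ_mul_00, SLQ_mul_01, SLQ_mul_10, SLQ_mul_11, diagU_00, diagU_01,
      diagU_10, diagU_11, iotaT_apply, conjQ_01, iotaF_apply, castQ_apply, inv_inv]
    field_simp
    ring
  · simp only [thetaQ_10, SLQ_mul_00, SLQ_mul_01, SLQ_mul_10, SLQ_mul_11, diagU_00, diagU_01,
      diagU_10, diagU_11, iotaT_apply, conjQ_10, iotaF_apply, castQ_apply, inv_inv]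
    field_simp
    ring
  · simp only [thetaQ_11, SLQ_mul_00, SLQ_mul_01, SLQ_mul_10, SLQ_mul_11, diagU_00, diagU_01,
      diagU_10, diagU_11, iotaT_apply, conjQ_11, iotaF_apply, castQ_apply, inv_inv]
    field_simp
    ring

variable (hqN : Nat.Coprime q N)

include hqN in
theorem thetaQ_mem {g : SLQ} (hg : g ∈ Delta N q) : thetaQ q g ∈ Delta N q := by
  have : Delta N q ≤ (Delta N q).comap (thetaQ q) := by
    unfold Delta
    apply sup_le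
    · rintro _ ⟨γ, rfl⟩
      rw [Subgroup.mem_comap, thetaQ_iotaF]
      exact iotaT_mem_Delta γ
    · rintro _ ⟨γ, rfl⟩
      rw [Subgroup.mem_comap, thetaQ_iotaT]
      exact mul_mem (mul_mem (inv_mem (diagQ_mem hqN)) (iotaF_mem_Delta γ)) (diagQ_mem hqN)
  exact this hg

/-- `Θ` as an endomorphism of `Δ` -/
def thetaD : ↥(Delta N q) →* ↥(Delta N q) :=
  ((thetaQ q).comp (Delta N q).subtype).codRestrict (Delta N q) (fun g => thetaQ_mem hqN g.2)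

theorem thetaD_iotaF (γ : ↥(Gamma0 N)) :
    thetaD hqN ⟨iotaF N γ, iotaF_mem_Delta γ⟩ = ⟨iotaT N q γ, iotaT_mem_Delta γ⟩ := by
  apply Subtype.ext
  exact thetaQ_iotaF γ

theorem thetaD_iotaT (γ : ↥(Gamma0 N)) :
    thetaD hqN ⟨iotaT N q γ, iotaT_mem_Delta γ⟩ =
      (⟨diagQ q, diagQ_mem hqN⟩ : ↥(Delta N q))⁻¹ * ⟨iotaF N γ, iotaF_mem_Delta γ⟩ *
        ⟨diagQ q, diagQ_mem hqN⟩ := by
  apply Subtype.ext
  exact thetaQ_iotaT γ

variable {A : Type*} [CommGroup A] (hA : ∀ a : A, a ^ q = 1 → a = 1) (χ : ↥(Delta N q) →* A)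

theorem comp_thetaD_iotaF (γ : ↥(Gamma0 N)) :
    (χ.comp (thetaD hqN)) ⟨iotaF N γ, iotaF_mem_Delta γ⟩ = χ ⟨iotaT N q γ, iotaT_mem_Delta γ⟩ := by
  rw [MonoidHom.comp_apply, thetaD_iotaF]

theorem comp_thetaD_iotaT (γ : ↥(Gamma0 N)) :
    (χ.comp (thetaD hqN)) ⟨iotaT N q γ, iotaT_mem_Delta γ⟩ = χ ⟨iotaF N γ, iotaF_mem_Delta γ⟩ := by
  rw [MonoidHom.comp_apply, thetaD_iotaT, map_mul, map_mul, map_inv, mul_comm, ← mul_assoc,
    mul_inv_cancel, one_mul]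

variable
  (hparT : ∀ γ : ↥(Gamma0 N),
    (((γ : SL(2, ℤ)) : Matrix (Fin 2) (Fin 2) ℤ)).trace ^ 2 = 4 →
      χ ⟨iotaT N q γ, iotaT_mem_Delta γ⟩ = 1)

include hqN hA hparT in
/-- **(H1)** for `χ ∘ ι_T` -/
theorem chi_iotaT_upper (γ : ↥(Gamma0 N)) (h10 : (γ : SL(2, ℤ)) 1 0 = 0)
    (h11 : (γ : SL(2, ℤ)) 1 1 = 1) : χ ⟨iotaT N q γ, iotaT_mem_Delta γ⟩ = 1 := by
  rw [← comp_thetaD_iotaF hqN χ γ]
  exact chi_iotaF_upper hA (χ.comp (thetaD hqN))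
    (fun γ hγ => by rw [comp_thetaD_iotaF]; exact hparT γ hγ) γ h10 h11

include hqN hA hparT in
/-- **(H2)** for `χ ∘ ι_T` -/
theorem chi_iotaT_lower (γ : ↥(Gamma0 N)) (h01 : (γ : SL(2, ℤ)) 0 1 = 0)
    (h11 : (γ : SL(2, ℤ)) 1 1 = 1) : χ ⟨iotaT N q γ, iotaT_mem_Delta γ⟩ = 1 := by
  rw [← comp_thetaD_iotaF hqN χ γ]
  exact chi_iotaF_lower hA (χ.comp (thetaD hqN))
    (fun γ hγ => by rw [comp_thetaD_iotaF]; exact hparT γ hγ) γ h01 h11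

include hqN hA hparT in
/-- **(P3ℤ)** for `χ ∘ ι_T` -/
theorem chi_iotaT_eq_of_row (γ γ' : ↥(Gamma0 N)) (k : ℕ) (hk : (N : ℤ) ∣ (q : ℤ) ^ k - 1)
    (h10 : (γ' : SL(2, ℤ)) 1 0 = (γ : SL(2, ℤ)) 1 0)
    (h11 : (γ' : SL(2, ℤ)) 1 1 = (γ : SL(2, ℤ)) 1 1 * (q : ℤ) ^ (2 * k)) :
    χ ⟨iotaT N q γ', iotaT_mem_Delta γ'⟩ = χ ⟨iotaT N q γ, iotaT_mem_Delta γ⟩ := by
  rw [← comp_thetaD_iotaF hqN χ γ, ← comp_thetaD_iotaF hqN χ γ']
  exact chi_iotaF_eq_of_row hqN hA (χ.comp (thetaD hqN))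
    (fun γ hγ => by rw [comp_thetaD_iotaF]; exact hparT γ hγ) γ γ' k hk h10 h11

include hqN hA hparT in
/-- **(H3)** ("unit" form) for `χ ∘ ι_T` -/
theorem chi_iotaT_eq_one_of_unit (γ : ↥(Gamma0 N)) (k : ℕ) (hk : (N : ℤ) ∣ (q : ℤ) ^ k - 1)
    (h11 : (γ : SL(2, ℤ)) 1 1 = (q : ℤ) ^ k) :
    χ ⟨iotaT N q γ, iotaT_mem_Delta γ⟩ = 1 := by
  rw [← comp_thetaD_iotaF hqN χ γ]
  exact chi_iotaF_eq_one_of_unit hqN hA (χ.comp (thetaD hqN))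
    (fun γ hγ => by rw [comp_thetaD_iotaF]; exact hparT γ hγ) γ k hk h11

end theta

end Fermat.Agent.S41lib.TREE
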