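/-
S41lib / TREE / KGlue  (helper3).

The congruence-subgroup brick `IH.CSPBrick` from
* the gluing theorem `TREE.exists_glue` (amalgam structure of `Δ = ⟨Γ₀(N), δ⁻¹ Γ₀(N) δ⟩`),
* `TREE.Generation` ((H1), (H2), (P3ℤ) for `χ ∘ ι_F` and `χ ∘ ι_T`),
* the output `CSPOut` of the CSP block (a homomorphism `Γ₀(N) → 𝔽_p` with (H1), (H2), (P3ℤ) kills
  `Γ₁(N)`), taken here as a hypothesis.
-/
import Mathlib
import Fermat.Agent.S41lib.TREE.Generation
import Fermat.Agent.S41lib.IH.Main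

set_option autoImplicit false
set_option linter.unusedSectionVars false
set_option linter.unusedVariables false

noncomputable section

namespace Fermat.Agent.S41lib.TREE

open Matrix CongruenceSubgroup Matrix.SpecialLinearGroup ModularCurve.Period ModularForm
open Fermat.Agent.S41lib.HC Fermat.Agent.S31lib.PET
open scoped MatrixGroups

/-- The output of the CSP block: a homomorphism `Γ₀(N) → 𝔽_p` killing the upper and the lower
unipotents and invariant under `(c, d) ↦ (c, d q^{2k})`, `q^k ≡ 1 mod N`, kills `Γ₁(N)`. -/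
def CSPOut (N q p : ℕ) : Prop :=
  ∀ φ : ↥(Gamma0 N) →* Multiplicative (ZMod p),
    (∀ g : ↥(Gamma0 N), g.1 1 0 = 0 → g.1 1 1 = 1 → φ g = 1) →
    (∀ g : ↥(Gamma0 N), g.1 0 1 = 0 → g.1 1 1 = 1 → φ g = 1) →
    (∀ (g g' : ↥(Gamma0 N)) (k : ℕ), IsCoprime (g.1 1 0) (q : ℤ) → (N : ℤ) ∣ (q : ℤ) ^ k - 1 →
      g'.1 1 0 = g.1 1 0 → g'.1 1 1 = g.1 1 1 * (q : ℤ) ^ (2 * k) → φ g' = φ g) →
    ∀ g : ↥(Gamma0 N), (N : ℤ) ∣ g.1 1 1 - 1 → φ g = 1

section

variable {N q : ℕ} [NeZero N] [Fact q.Prime] (hqN : ¬ q ∣ N)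

/-- the entries of `δ γ' δ⁻¹` -/
theorem conjDelta_entries (h : ↥(Gamma0 (N * q))) :
    ((conjDelta hqN h : ↥(Gamma0 N)) : SL(2, ℤ)) 0 0 = (h : SL(2, ℤ)) 0 0 ∧
    ((conjDelta hqN h : ↥(Gamma0 N)) : SL(2, ℤ)) 0 1 = (q : ℤ) * (h : SL(2, ℤ)) 0 1 ∧
    (q : ℤ) * ((conjDelta hqN h : ↥(Gamma0 N)) : SL(2, ℤ)) 1 0 = (h : SL(2, ℤ)) 1 0 ∧
    ((conjDelta hqN h : ↥(Gamma0 N)) : SL(2, ℤ)) 1 1 = (h : SL(2, ℤ)) 1 1 := by
  have hq0 : q ≠ 0 := NeZero.ne q
  have hqR : (q : ℝ) ≠ 0 := Nat.cast_ne_zero.mpr hq0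
  have hrel := congrArg (fun g : GL (Fin 2) ℝ => (g : Matrix (Fin 2) (Fin 2) ℝ))
    (conjDelta_rel hqN h)
  simp only [Matrix.GeneralLinearGroup.coe_mul, val_heckeDiagMatrix hq0, mapGL_coe_matrix] at hrel
  set X : SL(2, ℤ) := ((conjDelta hqN h : ↥(Gamma0 N)) : SL(2, ℤ)) with hX
  have e00 := congrFun (congrFun hrel 0) 0
  have e01 := congrFun (congrFun hrel 0) 1
  have e10 := congrFun (congrFun hrel 1) 0
  have e11 := congrFun (congrFun hrel 1) 1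
  simp only [Matrix.mul_apply, Fin.sum_univ_two, Matrix.of_apply, Matrix.cons_val_zero,
    Matrix.cons_val_one, Matrix.cons_val', Matrix.map_apply, Matrix.SpecialLinearGroup.map_apply_coe,
    RingHom.mapMatrix_apply, algebraMap_int_eq, Int.coe_castRingHom, Matrix.empty_val',
    Matrix.cons_val_fin_one, Matrix.head_cons, Matrix.head_fin_const, mul_zero, zero_mul, add_zero,
    zero_add, mul_one, one_mul] at e00 e01 e10 e11
  refine ⟨?_, ?_, ?_, ?_⟩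
  · have : ((X 0 0 : ℤ) : ℝ) = (((h : SL(2, ℤ)) 0 0 : ℤ) : ℝ) := by
      have := e00
      field_simp at this
      linarith
    exact_mod_cast this
  · have : ((X 0 1 : ℤ) : ℝ) = (q : ℝ) * (((h : SL(2, ℤ)) 0 1 : ℤ) : ℝ) := by
      linarith
    exact_mod_cast this
  · have : (q : ℝ) * ((X 1 0 : ℤ) : ℝ) = (((h : SL(2, ℤ)) 1 0 : ℤ) : ℝ) := by
      linarith
    exact_mod_cast this
  · have : ((X 1 1 : ℤ) : ℝ) = (((h : SL(2, ℤ)) 1 1 : ℤ) : ℝ) := by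
      linarith
    exact_mod_cast this

theorem conjQ_conjDelta (h : ↥(Gamma0 (N * q))) :
    conjQ q ((conjDelta hqN h : ↥(Gamma0 N)) : SL(2, ℤ)) = castQ (h : SL(2, ℤ)) := by
  obtain ⟨h00, h01, h10, h11⟩ := conjDelta_entries hqN h
  exact conjQ_eq_castQ_of_entries q _ _ h00 h01 h10 h11

theorem gamma0Map_eq_one_iff (g : ↥(Gamma0 N)) :
    Gamma0Map N g = 1 ↔ (N : ℤ) ∣ (g : SL(2, ℤ)) 1 1 - 1 := by
  show (((g : SL(2, ℤ)) 1 1 : ℤ) : ZMod N) = 1 ↔ _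
  rw [← ZMod.intCast_zmod_eq_zero_iff_dvd]
  push_cast
  rw [sub_eq_zero]

/-- `𝔽_p` has no `q`-torsion, `q ≠ p` -/
theorem no_q_torsion {p : ℕ} [Fact p.Prime] (hqp : q ≠ p) :
    ∀ a : Multiplicative (ZMod p), a ^ q = 1 → a = 1 := by
  intro a ha
  have h1 : (q : ZMod p) * Multiplicative.toAdd a = 0 := by
    have := congrArg Multiplicative.toAdd ha
    rw [toAdd_pow, toAdd_one, nsmul_eq_mul] at this
    exact this
  have hq : (q : ZMod p) ≠ 0 := by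
    intro h0
    rw [ZMod.natCast_eq_zero_iff] at h0
    exact hqp ((Nat.prime_dvd_prime_iff_eq Fact.out Fact.out).mp h0).symm
  have h2 : Multiplicative.toAdd a = 0 := (mul_eq_zero.mp h1).resolve_left hq
  exact Multiplicative.toAdd.injective h2

/-- **The congruence-subgroup brick** from the CSP block output. -/
theorem cspBrick_of_cspOut {p : ℕ} [Fact p.Prime] (hqp : q ≠ p) (hcsp : CSPOut N q p) :
    IH.CSPBrick (N := N) hqN p := by
  intro φ₁ φ₂ hp₁ hp₂ hrel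
  have hcop : Nat.Coprime q N := (Nat.Prime.coprime_iff_not_dvd Fact.out).mpr hqN
  have hA := no_q_torsion (q := q) hqp
  -- multiplicative versions
  let ψ₁ : ↥(Gamma0 N) →* Multiplicative (ZMod p) := AddMonoidHom.toMultiplicativeRight φ₁
  let ψ₂ : ↥(Gamma0 N) →* Multiplicative (ZMod p) := AddMonoidHom.toMultiplicativeRight (-φ₂)
  have hψ₁ : ∀ g, ψ₁ g = Multiplicative.ofAdd (φ₁ (Additive.ofMul g)) := fun g => rfl
  have hψ₂ : ∀ g, ψ₂ g = Multiplicative.ofAdd (-(φ₂ (Additive.ofMul g))) := fun g => rfl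
  have hglue : ∀ h : ↥(Gamma0 (N * q)), ψ₁ (inclMul N q h) = ψ₂ (conjDelta hqN h) := by
    intro h
    rw [hψ₁, hψ₂]
    congr 1
    have := congrArg (fun F : H (Gamma0 (N * q)) (ZMod p) => F (Additive.ofMul h)) hrel
    simp only [AddMonoidHom.add_apply, res_apply, deg_apply, AddMonoidHom.zero_apply] at this
    exact eq_neg_of_add_eq_zero_left this
  obtain ⟨χ, hχ₁, hχ₂⟩ := exists_glue hcop (inclMul N q) (conjDelta hqN) (fun h => rfl)
    (conjQ_conjDelta hqN) ψ₁ ψ₂ hglue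
  have hpar : ∀ γ : ↥(Gamma0 N),
      (((γ : SL(2, ℤ)) : Matrix (Fin 2) (Fin 2) ℤ)).trace ^ 2 = 4 →
        χ ⟨iotaF N γ, iotaF_mem_Delta γ⟩ = 1 := by
    intro γ hγ
    rw [hχ₁, hψ₁, hp₁ γ hγ]
    rfl
  have hparT : ∀ γ : ↥(Gamma0 N),
      (((γ : SL(2, ℤ)) : Matrix (Fin 2) (Fin 2) ℤ)).trace ^ 2 = 4 →
        χ ⟨iotaT N q γ, iotaT_mem_Delta γ⟩ = 1 := by
    intro γ hγ
    rw [hχ₂, hψ₂, hp₂ γ hγ, neg_zero]
    rfl
  have k₁ := hcsp ψ₁
    (fun g h10 h11 => by rw [← hχ₁]; exact chi_iotaF_upper hA χ hpar g h10 h11)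
    (fun g h01 h11 => by rw [← hχ₁]; exact chi_iotaF_lower hA χ hpar g h01 h11)
    (fun g g' k _ hk h10 h11 => by
      rw [← hχ₁, ← hχ₁]; exact chi_iotaF_eq_of_row hcop hA χ hpar g g' k hk h10 h11)
  have k₂ := hcsp ψ₂
    (fun g h10 h11 => by rw [← hχ₂]; exact chi_iotaT_upper hcop hA χ hparT g h10 h11)
    (fun g h01 h11 => by rw [← hχ₂]; exact chi_iotaT_lower hcop hA χ hparT g h01 h11)
    (fun g g' k _ hk h10 h11 => by
      rw [← hχ₂, ← hχ₂]; exact chi_iotaT_eq_of_row hcop hA χ hparT g g' k hk h10 h11)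
  refine ⟨fun g hg => ?_, fun g hg => ?_⟩
  · have := k₁ g ((gamma0Map_eq_one_iff g).mp hg)
    rw [hψ₁] at this
    exact Multiplicative.ofAdd.injective this
  · have := k₂ g ((gamma0Map_eq_one_iff g).mp hg)
    rw [hψ₂] at this
    exact neg_eq_zero.mp (Multiplicative.ofAdd.injective this)

end

end Fermat.Agent.S41lib.TREE
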