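/-
S41lib / TREE / CspBrick  (helper3).

**The congruence-subgroup brick** `IH.CSPBrick hqN p` (`p` an odd prime, `q ≠ p` a prime not dividing
`N`): two parabolic classes `φ₁, φ₂ : Γ₀(N) → 𝔽_p` with `res φ₁ + deg φ₂ = 0` on `Γ₀(N q)` vanish on
`Γ₁(N)`.  Assembly of `TREE.cspBrick_of_cspOut` (gluing on the amalgam `Δ` + generation) with the
CSP block output `CSP.eq_one_of_Gamma1` (helper2).
-/
import Mathlib
import Fermat.Agent.S41lib.TREE.KGlue
import Fermat.Agent.S41lib.CSP.KMain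

set_option autoImplicit false

namespace Fermat.Agent.S41lib.TREE

open CongruenceSubgroup

theorem cspOut {N q p : ℕ} [NeZero N] [Fact q.Prime] [Fact p.Prime] (hqN : ¬ q ∣ N)
    (hp2 : p ≠ 2) : CSPOut N q p := fun φ h1 h2 h3 g hg =>
  CSP.eq_one_of_Gamma1 (Nat.pos_of_ne_zero (NeZero.ne N)) Fact.out hqN Fact.out hp2 φ h1 h2 h3 g hg

/-- **The congruence-subgroup brick.** -/
theorem cspBrick {N q p : ℕ} [NeZero N] [Fact q.Prime] [Fact p.Prime] (hqN : ¬ q ∣ N)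
    (hp2 : p ≠ 2) (hqp : q ≠ p) : IH.CSPBrick (N := N) hqN p :=
  cspBrick_of_cspOut hqN hqp (cspOut hqN hp2)

end Fermat.Agent.S41lib.TREE
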